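import Mathlib

/-!
# P-S48 (E-WP): the point `l τ` of the upper half plane (helper30)
-/

set_option autoImplicit false

namespace Fermat.Agent.S48x.EWP

open UpperHalfPlane hiding I
open Complex

noncomputable section

/-- the point `l τ` of the upper half plane -/
def mulTau (l : ℕ) (hl : 0 < l) (τ : ℍ) : ℍ :=
  ⟨(l : ℂ) * (τ : ℂ), by
    have h : (0 : ℝ) < (l : ℝ) * τ.im := mul_pos (Nat.cast_pos.mpr hl) τ.im_pos
    simpa using h⟩

@[simp]
theorem coe_mulTau (l : ℕ) (hl : 0 < l) (τ : ℍ) : ((mulTau l hl τ : ℍ) : ℂ) = (l : ℂ) * (τ : ℂ) :=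
  rfl

theorem im_mulTau (l : ℕ) (hl : 0 < l) (τ : ℍ) : (mulTau l hl τ).im = (l : ℝ) * τ.im := by
  change ((l : ℂ) * (τ : ℂ)).im = _
  simp

end

end Fermat.Agent.S48x.EWP
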