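import Fermat.Agent.S48x.Eis1.Holo
import Fermat.Agent.S48x.EWP.MulTau

/-!
# P-S48 (E-WP): the `q`-expansion of the weight one Eisenstein series `E_{1,ψ}` (helper42)

For a prime `l`, an odd Dirichlet character `ψ` mod `l` and
`E(τ) = (-l / 2πi) ∑_{a mod l} ψ(a) Z_{(a,0)}(l τ)` we prove
`E(τ) = -∑_{a < l} ψ(a) a + 2 l ∑_{n ≥ 1} (∑_{d ∣ n} ψ(d)) q^n`, `q = e^{2πiτ}` (`hasSum_qExp`).
-/

set_option autoImplicit false

namespace Fermat.Agent.S48x.EWP

open UpperHalfPlane hiding I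
open Complex
open scoped Real
open Fermat.Agent.S48x.Eis1

noncomputable section

/-! ### Lambert series with bounded coefficients -/

theorem summable_lambert {f : ℕ → ℂ} {C : ℝ} (hf : ∀ d, ‖f d‖ ≤ C) {q : ℂ} (hq : ‖q‖ < 1) :
    Summable (fun d : ℕ => f d * (q ^ d / (1 - q ^ d))) := by
  have h0 := (summable_norm_pow_mul_geometric_div_one_sub 0 hq).norm.mul_left C
  refine Summable.of_norm_bounded h0 fun d => ?_
  rw [norm_mul]
  have : ‖q ^ d / (1 - q ^ d)‖ = ‖(d : ℂ) ^ 0 * q ^ d / (1 - q ^ d)‖ := by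
    rw [pow_zero, one_mul]
  rw [this]
  exact mul_le_mul_of_nonneg_right (hf d) (norm_nonneg _)

theorem hasSum_pnat_geometric {x : ℂ} (hx : ‖x‖ < 1) :
    HasSum (fun k : ℕ+ => x ^ (k : ℕ)) (x / (1 - x)) := by
  have h1 : HasSum (fun k : ℕ => x ^ (k + 1)) (x / (1 - x)) := by
    have := (hasSum_geometric_of_norm_lt_one hx).mul_left x
    simpa [pow_succ', div_eq_mul_inv] using this
  rw [← Equiv.pnatEquivNat.symm.hasSum_iff]
  refine h1.congr_fun ?_ 
  intro n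
  simp [Equiv.pnatEquivNat]

theorem hasSum_pnat_iff {g : ℕ → ℂ} (h0 : g 0 = 0) {a : ℂ} :
    HasSum (fun n : ℕ+ => g n) a ↔ HasSum g a := by
  have := Function.Injective.hasSum_iff (f := g) (a := a) PNat.coe_injective (by
    intro x hx
    have : x = 0 := by
      by_contra h
      exact hx ⟨⟨x, Nat.pos_of_ne_zero h⟩, rfl⟩
    rw [this, h0])
  exact this

theorem hasSum_lambert {f : ℕ → ℂ} {C : ℝ} (hf : ∀ d, ‖f d‖ ≤ C) {q : ℂ} (hq : ‖q‖ < 1) :
    HasSum (fun n : ℕ => (∑ d ∈ n.divisors, f d) * q ^ n)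
      (∑' d : ℕ, f d * (q ^ d / (1 - q ^ d))) := by
  set G : ℕ+ × ℕ+ → ℂ := fun p => f p.1 * q ^ ((p.1 : ℕ) * (p.2 : ℕ)) with hGdef
  have hG : Summable G := by
    have h0 := (summable_prod_mul_pow 0 hq).norm.mul_left C
    refine Summable.of_norm_bounded h0 fun p => ?_
    rw [hGdef]
    simp only [norm_mul, pow_zero, one_mul]
    exact mul_le_mul_of_nonneg_right (hf _) (norm_nonneg _)
  -- rows
  have hrow : ∀ d : ℕ+, HasSum (fun k : ℕ+ => G (d, k)) (f d * (q ^ (d : ℕ) / (1 - q ^ (d : ℕ)))) := by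
    intro d
    have hx : ‖q ^ (d : ℕ)‖ < 1 := by
      rw [norm_pow]
      exact pow_lt_one₀ (norm_nonneg _) hq d.pos.ne'
    have := (hasSum_pnat_geometric hx).mul_left (f d)
    refine this.congr_fun ?_
    intro k
    simp only [hGdef, pow_mul]
  have hsum1 : HasSum (fun d : ℕ+ => f d * (q ^ (d : ℕ) / (1 - q ^ (d : ℕ)))) (∑' p, G p) :=
    hG.hasSum.prod_fiberwise hrow
  have hS : (∑' d : ℕ, f d * (q ^ d / (1 - q ^ d))) = ∑' p, G p := by
    have h1 := (hasSum_pnat_iff (g := fun d : ℕ => f d * (q ^ d / (1 - q ^ d))) (by simp)).mp hsum1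
    exact h1.tsum_eq
  rw [hS]
  -- columns
  have hsig : HasSum (G ∘ sigmaAntidiagonalEquivProd) (∑' p, G p) :=
    (sigmaAntidiagonalEquivProd.hasSum_iff).mpr hG.hasSum
  have hcol : ∀ n : ℕ+, HasSum (fun x : Nat.divisorsAntidiagonal (n : ℕ) =>
      (G ∘ sigmaAntidiagonalEquivProd) ⟨n, x⟩) ((∑ d ∈ (n : ℕ).divisors, f d) * q ^ (n : ℕ)) := by
    intro n
    have h1 := hasSum_fintype (fun x : Nat.divisorsAntidiagonal (n : ℕ) =>
      (G ∘ sigmaAntidiagonalEquivProd) ⟨n, x⟩)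
    convert h1 using 1
    rw [Finset.sum_mul, ← Nat.sum_divisorsAntidiagonal (fun i j => f i * q ^ (n : ℕ)),
      ← Finset.sum_coe_sort]
    refine Finset.sum_congr rfl fun x _ => ?_
    have hx := (Nat.mem_divisorsAntidiagonal.mp x.2).1
    simp only [Function.comp, sigmaAntidiagonalEquivProd, divisorsAntidiagonalFactors, hGdef,
      Equiv.coe_fn_mk, PNat.mk_coe, hx]
  have h2 := hsig.sigma hcol
  exact (hasSum_pnat_iff (g := fun n : ℕ => (∑ d ∈ n.divisors, f d) * q ^ n) (by simp)).mp h2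


/-! ### The explicit series of `Z_{(a,0)}(l τ)` -/

/-- `lamb x = x / (1 - x)` -/
def lamb (x : ℂ) : ℂ := x / (1 - x)

theorem ee_natCast_mul (n : ℕ) (z : ℂ) : ee ((n : ℂ) * z) = ee z ^ n := by
  unfold ee
  rw [← Complex.exp_nat_mul]
  congr 1
  ring

theorem norm_ee_coe_lt_one (τ : ℍ) : ‖ee (τ : ℂ)‖ < 1 := by
  rw [norm_ee]
  exact exp_neg_two_pi_im_lt_one τ

theorem qParam_one_eq_ee (τ : ℍ) : Function.Periodic.qParam 1 (τ : ℂ) = ee τ := by
  unfold Function.Periodic.qParam ee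
  simp

theorem summable_lamb_pow {q : ℂ} (hq : ‖q‖ < 1) : Summable (fun n : ℕ => lamb (q ^ n)) := by
  have := summable_norm_pow_mul_geometric_div_one_sub 0 hq
  simpa [lamb] using this

theorem injective_add_mul {l : ℕ} (hl : 0 < l) (a : ℕ) : Function.Injective (fun m : ℕ => a + l * m) := by
  intro x y h
  exact Nat.eq_of_mul_eq_mul_left hl (Nat.add_left_cancel h)

theorem summable_lamb_class {q : ℂ} (hq : ‖q‖ < 1) {l : ℕ} (hl : 0 < l) (a : ℕ) :
    Summable (fun m : ℕ => lamb (q ^ (a + l * m))) :=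
  (summable_lamb_pow hq).comp_injective (injective_add_mul hl a)

theorem hh_mulTau (l : ℕ) (hl : 0 < l) (n : ℕ) (τ : ℍ) :
    hh l (n : ℤ) 0 (mulTau l hl τ : ℂ) = lamb (ee τ ^ n) := by
  unfold hh lamb
  have hl0 : (l : ℂ) ≠ 0 := by exact_mod_cast hl.ne'
  have : (((n : ℤ) : ℂ) * ((mulTau l hl τ : ℍ) : ℂ) + ((0 : ℤ) : ℂ)) / l = (n : ℂ) * τ := by
    rw [coe_mulTau]
    push_cast
    field_simp
    ring
  rw [this, ee_natCast_mul]

theorem Zv_mulTau_eq (l : ℕ) (hl : 0 < l) (a : ℕ) (ha0 : 0 < a) (hal : a < l) (τ : ℍ) :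
    Zv l (a : ℤ) 0 (mulTau l hl τ) = -(π * I) + 2 * π * I * a / l
      - 2 * π * I * (∑' m : ℕ, lamb (ee τ ^ (a + l * m))
        - ∑' m : ℕ, lamb (ee τ ^ ((l - a) + l * m))) := by
  have hq := norm_ee_coe_lt_one τ
  have hv : ¬ ((l : ℤ) ∣ (a : ℤ) ∧ (l : ℤ) ∣ 0) := by
    rintro ⟨h1, -⟩
    exact Nat.not_dvd_of_pos_of_lt ha0 hal (Int.natCast_dvd_natCast.mp h1)
  rw [Zv_eq_ZvExp hl (Int.natCast_nonneg a) hv]
  unfold ZvExp expHead
  have ha1 : (a : ℤ) ≠ 0 := by exact_mod_cast ha0.ne'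
  rw [if_neg ha1, hh_mulTau]
  have hterm : ∀ m : ℕ, expTerm l (a : ℤ) 0 m (mulTau l hl τ : ℂ)
      = -(2 * π * I) * (lamb (ee τ ^ (a + l * (m + 1))) - lamb (ee τ ^ ((l - a) + l * m))) := by
    intro m
    unfold expTerm
    have hle : a ≤ (m + 1) * l := by
      calc a ≤ l := hal.le
        _ ≤ (m + 1) * l := Nat.le_mul_of_pos_left l (Nat.succ_pos m)
    have e1 : ((a : ℤ) + ((m + 1 : ℕ) : ℤ) * (l : ℤ)) = ((a + l * (m + 1) : ℕ) : ℤ) := by
      push_cast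
      ring
    have e2 : (((m + 1 : ℕ) : ℤ) * (l : ℤ) - (a : ℤ)) = (((l - a) + l * m : ℕ) : ℤ) := by
      have h3 : ((l - a : ℕ) : ℤ) = (l : ℤ) - (a : ℤ) := Nat.cast_sub hal.le
      push_cast [h3]
      ring
    rw [e1, e2, neg_zero, hh_mulTau, hh_mulTau]
  simp_rw [hterm]
  rw [tsum_mul_left, (summable_lamb_class hq hl a).tsum_eq_zero_add]
  rw [Summable.tsum_sub ((summable_nat_add_iff 1).mpr (summable_lamb_class hq hl a)) 
    (summable_lamb_class hq hl (l - a))]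
  simp only [mul_zero, add_zero, Int.cast_natCast]
  ring

/-! ### Sums over residues and the main statement -/

theorem sum_range_eq_sum_zmod (l : ℕ) [NeZero l] (g : ℕ → ℂ) :
    ∑ a ∈ Finset.range l, g a = ∑ j : ZMod l, g j.val := by
  obtain ⟨n, rfl⟩ := Nat.exists_eq_succ_of_ne_zero (NeZero.ne l)
  exact (Fin.sum_univ_eq_sum_range g (n + 1)).symm

/-- The `q`-expansion of `E_{1,ψ}(τ) = (-l / 2πi) ∑_{a mod l} ψ(a) Z_{(a,0)}(l τ)` for an odd
character `ψ` modulo the prime `l`. -/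
theorem hasSum_qExp (l : ℕ) [hp : Fact l.Prime] (hl : 0 < l) (ψ : DirichletCharacter ℂ l)
    (hψ : ψ (-1) = -1) (τ : ℍ) :
    HasSum (fun n : ℕ =>
        (if n = 0 then -∑ a ∈ Finset.range l, ψ ((a : ℕ) : ZMod l) * (a : ℂ)
          else 2 * (l : ℂ) * ∑ d ∈ n.divisors, ψ ((d : ℕ) : ZMod l)) •
          Function.Periodic.qParam 1 (τ : ℂ) ^ n)
      ((-(l : ℂ) / (2 * π * I)) *
        ∑ a ∈ Finset.range l, ψ ((a : ℕ) : ZMod l) * Zv l (a : ℤ) 0 (mulTau l hl τ)) := by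
  set q : ℂ := ee τ with hqdef
  have hq : ‖q‖ < 1 := norm_ee_coe_lt_one τ
  have hbound : ∀ d : ℕ, ‖ψ ((d : ℕ) : ZMod l)‖ ≤ 1 := fun d => DirichletCharacter.norm_le_one ψ _
  have hLam := hasSum_lambert (f := fun d : ℕ => ψ ((d : ℕ) : ZMod l)) hbound hq
  have hSumm := summable_lambert (f := fun d : ℕ => ψ ((d : ℕ) : ZMod l)) hbound hq
  set B : ZMod l → ℂ := fun j => ∑' m : ℕ, lamb (q ^ (j.val + l * m)) with hB
  have hψ0 : ψ 0 = 0 := MulChar.map_zero ψ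
  have hψ1 : ψ ≠ 1 := by
    intro h
    rw [h, MulChar.one_apply (isUnit_one.neg)] at hψ
    norm_num at hψ
  have hsum0 : ∑ j : ZMod l, ψ j = 0 := MulChar.sum_eq_zero_of_ne_one hψ1
  have hres : ∑' d : ℕ, ψ ((d : ℕ) : ZMod l) * (q ^ d / (1 - q ^ d)) = ∑ j : ZMod l, ψ j * B j := by
    rw [Nat.sumByResidueClasses hSumm l]
    refine Finset.sum_congr rfl fun j _ => ?_
    rw [hB]
    simp only
    rw [← tsum_mul_left]
    refine tsum_congr fun m => ?_
    have : (((j.val + l * m : ℕ)) : ZMod l) = j := by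
      push_cast
      rw [ZMod.natCast_self, zero_mul, add_zero, ZMod.natCast_zmod_val]
    rw [this]
    rfl
  have hneg : ∑ j : ZMod l, ψ j * B (-j) = -∑ j : ZMod l, ψ j * B j := by
    rw [← Finset.sum_neg_distrib, ← Equiv.sum_comp (Equiv.neg (ZMod l))]
    refine Finset.sum_congr rfl fun j _ => ?_
    simp only [Equiv.neg_apply, neg_neg]
    have : ψ (-j) = -ψ j := by
      rw [← neg_one_mul, map_mul, hψ]
      ring
    rw [this]
    ring
  have hZ : ∀ j : ZMod l, ψ j * Zv l ((j.val : ℕ) : ℤ) 0 (mulTau l hl τ) =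
      ψ j * (-(π * I) + 2 * π * I * (j.val : ℕ) / l - 2 * π * I * (B j - B (-j))) := by
    intro j
    by_cases hj : j = 0
    · subst hj
      rw [hψ0, zero_mul, zero_mul]
    · have hpos : 0 < j.val := ZMod.val_pos.mpr hj
      have hlt : j.val < l := ZMod.val_lt j
      rw [Zv_mulTau_eq l hl j.val hpos hlt τ]
      have : (-j).val = l - j.val := by rw [ZMod.neg_val, if_neg hj]
      rw [hB]
      simp only [this, hqdef]
  have hT : ∑ a ∈ Finset.range l, ψ ((a : ℕ) : ZMod l) * Zv l (a : ℤ) 0 (mulTau l hl τ)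
      = (2 * π * I / l) * ∑ a ∈ Finset.range l, ψ ((a : ℕ) : ZMod l) * (a : ℂ)
        - 4 * π * I * ∑' d : ℕ, ψ ((d : ℕ) : ZMod l) * (q ^ d / (1 - q ^ d)) := by
    rw [sum_range_eq_sum_zmod l (fun a => ψ ((a : ℕ) : ZMod l) * Zv l (a : ℤ) 0 (mulTau l hl τ)),
      sum_range_eq_sum_zmod l (fun a => ψ ((a : ℕ) : ZMod l) * (a : ℂ))]
    simp only [ZMod.natCast_zmod_val]
    rw [Finset.sum_congr rfl (fun j _ => hZ j), hres]
    have hexp : ∀ j : ZMod l,
        ψ j * (-(π * I) + 2 * π * I * (j.val : ℕ) / l - 2 * π * I * (B j - B (-j)))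
        = -(π * I) * ψ j + (2 * π * I / l) * (ψ j * (j.val : ℕ)) - 2 * π * I * (ψ j * B j)
          + 2 * π * I * (ψ j * B (-j)) := by
      intro j
      ring
    simp_rw [hexp]
    rw [Finset.sum_add_distrib, Finset.sum_sub_distrib, Finset.sum_add_distrib,
      ← Finset.mul_sum, ← Finset.mul_sum, ← Finset.mul_sum, ← Finset.mul_sum, hsum0, hneg]
    ring
  rw [hT]
  have h2πI : (2 * π * I : ℂ) ≠ 0 := by
    simp [Real.pi_ne_zero, Complex.I_ne_zero]
  have hl0 : (l : ℂ) ≠ 0 := by exact_mod_cast hl.ne'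
  have htarget : ∀ S1 S2 : ℂ, (-(l : ℂ) / (2 * π * I)) * ((2 * π * I / l) * S1 - 4 * π * I * S2)
      = -S1 + 2 * (l : ℂ) * S2 := by
    intro S1 S2
    field_simp
    ring
  rw [htarget]
  have h1 : HasSum (fun n : ℕ => if n = 0 then
      (-∑ a ∈ Finset.range l, ψ ((a : ℕ) : ZMod l) * (a : ℂ)) else 0)
      (-∑ a ∈ Finset.range l, ψ ((a : ℕ) : ZMod l) * (a : ℂ)) := hasSum_ite_eq 0 _
  have h2 := hLam.mul_left (2 * (l : ℂ))
  refine (h1.add h2).congr_fun ?_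
  intro n
  rw [qParam_one_eq_ee]
  by_cases hn : n = 0
  · subst hn
    simp
  · simp only [if_neg hn, smul_eq_mul, zero_add]
    ring

end

end Fermat.Agent.S48x.EWP
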