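import Mathlib

/-!
# P-S48 (E-WP): the Teichmüller-inverse character (helper42)

For a ring homomorphism `φ : Zbar →+* k` to a field of characteristic `ℓ` (prime) we construct the
Dirichlet character `teichInv φ : DirichletCharacter ℂ ℓ` with values in the `(ℓ-1)`-st roots of
unity and `φ (ψ d) * d = 1` for every unit `d` (`ψ ≡ ω⁻¹`); it is odd for `ℓ ≠ 2`
(`teichInv_neg_one`), and the `q`-expansion coefficients of the Eisenstein series `E_{1,ψ}` are
algebraic integers congruent to `1, 0, 0, …` modulo `ker φ` (`teichInv_coeff`).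
-/

set_option autoImplicit false

namespace Fermat.Agent.S48x.EWP

open Polynomial

local notation "Zbar" => integralClosure ℤ ℂ

section Teich

variable {ℓ : ℕ} [hℓ : Fact ℓ.Prime] {k : Type} [Field k] [CharP k ℓ] (φ : Zbar →+* k)

/-- `(ℓ - 1 : k) ≠ 0` in characteristic `ℓ`. -/
theorem natCast_pred_ne_zero : ((ℓ - 1 : ℕ) : k) ≠ 0 := by
  have h1 : 1 ≤ ℓ := hℓ.out.one_lt.le
  rw [Nat.cast_sub h1, CharP.cast_eq_zero k ℓ]
  simp

/-- the standard primitive `(ℓ-1)`-st root of unity as an algebraic integer. -/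
noncomputable def zeta0 (ℓ : ℕ) : Zbar :=
  ⟨Complex.exp (2 * Real.pi * Complex.I / ((ℓ - 1 : ℕ) : ℂ)), by
    by_cases h : (ℓ - 1 : ℕ) = 0
    · have : Complex.exp (2 * Real.pi * Complex.I / ((ℓ - 1 : ℕ) : ℂ)) = 1 := by
        rw [h]; simp
      rw [this]
      exact isIntegral_one
    · exact (Complex.isPrimitiveRoot_exp _ h).isIntegral (Nat.pos_of_ne_zero h)⟩

theorem zeta0_isPrimitiveRoot : IsPrimitiveRoot ((zeta0 ℓ : Zbar) : ℂ) (ℓ - 1) := by
  have h : (ℓ - 1 : ℕ) ≠ 0 := Nat.sub_ne_zero_of_lt hℓ.out.one_lt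
  exact Complex.isPrimitiveRoot_exp _ h

/-- the image of `zeta0` under `φ` is a primitive `(ℓ-1)`-st root of unity of `k`. -/
theorem phi_zeta0_isPrimitiveRoot : IsPrimitiveRoot (φ (zeta0 ℓ)) (ℓ - 1) := by
  have hn : 0 < ℓ - 1 := Nat.sub_pos_of_lt hℓ.out.one_lt
  have : NeZero (((ℓ - 1 : ℕ)) : k) := ⟨natCast_pred_ne_zero⟩
  rw [← isRoot_cyclotomic_iff]
  have h1 : (cyclotomic (ℓ - 1) ℂ).IsRoot ((zeta0 ℓ : Zbar) : ℂ) :=
    (isRoot_cyclotomic_iff_charZero hn).2 zeta0_isPrimitiveRoot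
  have h2 : aeval (zeta0 ℓ) (cyclotomic (ℓ - 1) ℤ) = 0 := by
    apply Subtype.ext
    have : ((aeval (zeta0 ℓ) (cyclotomic (ℓ - 1) ℤ) : Zbar) : ℂ) =
        aeval ((zeta0 ℓ : Zbar) : ℂ) (cyclotomic (ℓ - 1) ℤ) := by
      rw [← Subalgebra.coe_val, ← aeval_algHom_apply]
    rw [this, ZeroMemClass.coe_zero, aeval_def, eval₂_eq_eval_map, algebraMap_int_eq,
      map_cyclotomic_int]
    exact h1
  have h3 := congrArg φ h2
  rw [map_zero, aeval_def, hom_eval₂, eval₂_eq_eval_map] at h3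
  have : (cyclotomic (ℓ - 1) ℤ).map (φ.comp (algebraMap ℤ Zbar)) = cyclotomic (ℓ - 1) k := by
    rw [← map_cyclotomic_int (ℓ - 1) k]
    congr 1
    exact RingHom.ext_int _ _
  rw [this] at h3
  exact h3

omit hℓ in
theorem pow_eq_pow_iff_of_isPrimitiveRoot {R : Type*} [CommRing R] [IsDomain R] {ζ : R} {n : ℕ}
    (hn : n ≠ 0) (h : IsPrimitiveRoot ζ n) {a b : ℕ} : ζ ^ a = ζ ^ b ↔ a ≡ b [MOD n] := by
  wlog hab : a ≤ b generalizing a b
  · rw [eq_comm, Nat.ModEq.comm]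
    exact this (le_of_not_ge hab)
  have hz : ζ ^ a ≠ 0 := pow_ne_zero _ (h.ne_zero hn)
  rw [Nat.modEq_iff_dvd' hab, ← h.pow_eq_one_iff_dvd]
  constructor
  · intro h1
    have : ζ ^ a * ζ ^ (b - a) = ζ ^ a * 1 := by
      rw [← pow_add, Nat.add_sub_cancel' hab, mul_one, h1]
    exact mul_left_cancel₀ hz this
  · intro h1
    calc ζ ^ a = ζ ^ a * ζ ^ (b - a) := by rw [h1, mul_one]
      _ = ζ ^ b := by rw [← pow_add, Nat.add_sub_cancel' hab]

/-- transfer of relations between powers from `k` to `ℂ`. -/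
theorem zeta0_pow_eq_of_phi {a b : ℕ} (h : φ (zeta0 ℓ) ^ a = φ (zeta0 ℓ) ^ b) :
    ((zeta0 ℓ : Zbar) : ℂ) ^ a = ((zeta0 ℓ : Zbar) : ℂ) ^ b := by
  have hn : ℓ - 1 ≠ 0 := Nat.sub_ne_zero_of_lt hℓ.out.one_lt
  rw [pow_eq_pow_iff_of_isPrimitiveRoot hn (phi_zeta0_isPrimitiveRoot φ)] at h
  rw [pow_eq_pow_iff_of_isPrimitiveRoot hn (zeta0_isPrimitiveRoot (ℓ := ℓ))]
  exact h

theorem zeta0_ne_zero : ((zeta0 ℓ : Zbar) : ℂ) ≠ 0 :=
  (zeta0_isPrimitiveRoot (ℓ := ℓ)).ne_zero (Nat.sub_ne_zero_of_lt hℓ.out.one_lt)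

/-- the residue of a unit of `ZMod ℓ` in `k`, in the shape of the E-WP contract. -/
theorem unit_val_pow (d : (ZMod ℓ)ˣ) : ((((d : ZMod ℓ).val : ℕ) : k)) ^ (ℓ - 1) = 1 := by
  have h := ZMod.units_pow_card_sub_one_eq_one ℓ d
  have h2 : ((d : ZMod ℓ)) ^ (ℓ - 1) = 1 := by
    rw [← Units.val_pow_eq_pow_val, h, Units.val_one]
  have h3 := congrArg (ZMod.castHom (dvd_refl ℓ) k) h2
  rw [map_pow, map_one, ZMod.castHom_apply, ← ZMod.natCast_val] at h3
  exact h3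

theorem exists_index (d : (ZMod ℓ)ˣ) :
    ∃ i : ℕ, φ (zeta0 ℓ) ^ i * (((d : ZMod ℓ).val : ℕ) : k) = 1 := by
  have hn : 0 < ℓ - 1 := Nat.sub_pos_of_lt hℓ.out.one_lt
  have : NeZero (ℓ - 1) := ⟨hn.ne'⟩
  have hne : ((((d : ZMod ℓ).val : ℕ) : k)) ≠ 0 := by
    intro h0
    have := unit_val_pow (k := k) d
    rw [h0, zero_pow hn.ne'] at this
    exact zero_ne_one this
  have hinv : ((((d : ZMod ℓ).val : ℕ) : k))⁻¹ ^ (ℓ - 1) = 1 := by
    rw [inv_pow, unit_val_pow, inv_one]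
  obtain ⟨i, -, hi⟩ := (phi_zeta0_isPrimitiveRoot φ).eq_pow_of_pow_eq_one hinv
  exact ⟨i, by rw [hi, inv_mul_cancel₀ hne]⟩

/-- the index of `d⁻¹` with respect to the primitive root `φ ζ₀`. -/
noncomputable def idx (d : (ZMod ℓ)ˣ) : ℕ := (exists_index φ d).choose

theorem idx_spec (d : (ZMod ℓ)ˣ) :
    φ (zeta0 ℓ) ^ idx φ d * (((d : ZMod ℓ).val : ℕ) : k) = 1 := (exists_index φ d).choose_spec

theorem val_mul_cast (d e : (ZMod ℓ)ˣ) :
    (((((d * e : (ZMod ℓ)ˣ) : ZMod ℓ)).val : ℕ) : k) =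
      (((d : ZMod ℓ).val : ℕ) : k) * (((e : ZMod ℓ).val : ℕ) : k) := by
  rw [ZMod.natCast_val, ZMod.natCast_val, ZMod.natCast_val, Units.val_mul,
    ← ZMod.castHom_apply (h := dvd_refl ℓ), ← ZMod.castHom_apply (h := dvd_refl ℓ),
    ← ZMod.castHom_apply (h := dvd_refl ℓ), map_mul]

/-- the unit-level Teichmüller-inverse character. -/
noncomputable def teichUnits : (ZMod ℓ)ˣ →* ℂˣ where
  toFun d := (Units.mk0 ((zeta0 ℓ : Zbar) : ℂ) zeta0_ne_zero) ^ idx φ d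
  map_one' := by
    have h := idx_spec φ (1 : (ZMod ℓ)ˣ)
    simp only [Units.val_one, ZMod.val_one, Nat.cast_one, mul_one] at h
    have h' : φ (zeta0 ℓ) ^ idx φ 1 = φ (zeta0 ℓ) ^ 0 := by rw [h, pow_zero]
    have := zeta0_pow_eq_of_phi φ h'
    apply Units.ext
    rw [Units.val_pow_eq_pow_val]
    simpa using this
  map_mul' d e := by
    have hde := idx_spec φ (d * e)
    have hd := idx_spec φ d
    have he := idx_spec φ e
    rw [val_mul_cast] at hde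
    have h' : φ (zeta0 ℓ) ^ idx φ (d * e) = φ (zeta0 ℓ) ^ (idx φ d + idx φ e) := by
      have hne : (((d : ZMod ℓ).val : ℕ) : k) * (((e : ZMod ℓ).val : ℕ) : k) ≠ 0 := by
        intro h0
        rw [h0, mul_zero] at hde
        exact zero_ne_one hde
      apply mul_right_cancel₀ hne
      rw [hde, pow_add]
      calc (1 : k) = (φ (zeta0 ℓ) ^ idx φ d * (((d : ZMod ℓ).val : ℕ) : k)) *
            (φ (zeta0 ℓ) ^ idx φ e * (((e : ZMod ℓ).val : ℕ) : k)) := by rw [hd, he, one_mul]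
        _ = _ := by ring
    have := zeta0_pow_eq_of_phi φ h'
    apply Units.ext
    rw [Units.val_mul, Units.val_pow_eq_pow_val, Units.val_pow_eq_pow_val,
      Units.val_pow_eq_pow_val, ← pow_add]
    exact this

/-- the Teichmüller-inverse character `ψ ≡ ω⁻¹` with respect to `φ`. -/
noncomputable def teichInv : DirichletCharacter ℂ ℓ := MulChar.ofUnitHom (teichUnits φ)

theorem teichInv_unit (d : (ZMod ℓ)ˣ) :
    teichInv φ (d : ZMod ℓ) = ((zeta0 ℓ ^ idx φ d : Zbar) : ℂ) := by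
  rw [teichInv, MulChar.ofUnitHom_coe]
  simp [teichUnits]

/-- `φ (ψ d) * d = 1`: the defining property, in the shape of the E-WP contract. -/
theorem teichInv_spec (d : (ZMod ℓ)ˣ) :
    ∃ z : Zbar, (z : ℂ) = teichInv φ (d : ZMod ℓ) ∧
      φ z * (((d : ZMod ℓ).val : ℕ) : k) = 1 :=
  ⟨zeta0 ℓ ^ idx φ d, (teichInv_unit φ d).symm, by rw [map_pow]; exact idx_spec φ d⟩

theorem half_pow_eq_neg_one {R : Type*} [CommRing R] [IsDomain R] {ζ : R}
    (h : IsPrimitiveRoot ζ (ℓ - 1)) (h2 : ℓ ≠ 2) : ζ ^ ((ℓ - 1) / 2) = -1 := by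
  have hodd : Odd ℓ := hℓ.out.odd_of_ne_two h2
  obtain ⟨m, hm⟩ := hodd
  have hm0 : m ≠ 0 := by
    rintro rfl
    have := hℓ.out.one_lt
    omega
  have e1 : (ℓ - 1) / 2 = m := by omega
  have e2 : (ℓ - 1) / m = 2 := by
    have : ℓ - 1 = 2 * m := by omega
    rw [this, Nat.mul_div_cancel _ (Nat.pos_of_ne_zero hm0)]
  have hd : m ∣ ℓ - 1 := ⟨2, by omega⟩
  have := h.pow_of_dvd hm0 hd
  rw [e2] at this
  rw [e1]
  exact this.eq_neg_one_of_two_right

/-- `ψ` is odd. -/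
theorem teichInv_neg_one (h2 : ℓ ≠ 2) : teichInv φ (-1) = -1 := by
  have hu := teichInv_unit φ (-1 : (ZMod ℓ)ˣ)
  rw [Units.val_neg, Units.val_one] at hu
  rw [hu, SubmonoidClass.coe_pow]
  have hi := idx_spec φ (-1 : (ZMod ℓ)ˣ)
  have hcast : ((((-1 : (ZMod ℓ)ˣ) : ZMod ℓ).val : ℕ) : k) = -1 := by
    rw [ZMod.natCast_val, Units.val_neg, Units.val_one, ← ZMod.castHom_apply (h := dvd_refl ℓ),
      map_neg, map_one]
  rw [hcast] at hi
  have hg : φ (zeta0 ℓ) ^ idx φ (-1) = -1 := by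
    have : φ (zeta0 ℓ) ^ idx φ (-1) * -1 * -1 = 1 * -1 := by rw [hi]
    simpa using this
  have hg2 := half_pow_eq_neg_one (phi_zeta0_isPrimitiveRoot φ) h2
  have := zeta0_pow_eq_of_phi φ (hg.trans hg2.symm)
  rw [this]
  exact half_pow_eq_neg_one (zeta0_isPrimitiveRoot (ℓ := ℓ)) h2

/-- every value of `ψ` is an algebraic integer; `φ (ψ a) * a = 1` on nonzero residues. -/
theorem teichInv_val (a : ZMod ℓ) :
    ∃ z : Zbar, (z : ℂ) = teichInv φ a ∧
      φ z * ((a.val : ℕ) : k) = if a = 0 then 0 else 1 := by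
  by_cases ha : IsUnit a
  · obtain ⟨d, rfl⟩ := ha
    obtain ⟨z, hz1, hz2⟩ := teichInv_spec φ d
    refine ⟨z, hz1, ?_⟩
    rw [hz2, if_neg d.ne_zero]
  · have h0 : a = 0 := by
      by_contra h
      exact ha (Ne.isUnit h)
    subst h0
    refine ⟨0, ?_, by simp⟩
    rw [MulChar.map_nonunit _ ha]
    simp

/-- The `q`-expansion coefficients of the weight one Eisenstein series `E_{1,ψ}`
(`-∑ ψ(a) a` at `n = 0` and `2 ℓ ∑_{d ∣ n} ψ(d)` at `n ≥ 1`) are algebraic integers, and `φ` maps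
them to `1` and `0` respectively. -/
theorem teichInv_coeff (n : ℕ) :
    ∃ z : Zbar,
      (z : ℂ) = (if n = 0 then -∑ a ∈ Finset.range ℓ, teichInv φ ((a : ℕ) : ZMod ℓ) * (a : ℂ)
        else 2 * (ℓ : ℂ) * ∑ d ∈ n.divisors, teichInv φ ((d : ℕ) : ZMod ℓ)) ∧
      φ z = if n = 0 then 1 else 0 := by
  choose w hw1 hw2 using teichInv_val φ
  by_cases hn : n = 0
  · subst hn
    refine ⟨-∑ a ∈ Finset.range ℓ, w ((a : ℕ) : ZMod ℓ) * ((a : ℕ) : Zbar), ?_, ?_⟩
    · rw [if_pos rfl]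
      push_cast
      congr 1
      refine Finset.sum_congr rfl fun a _ => ?_
      rw [hw1]
    · rw [if_pos rfl, map_neg, map_sum]
      have h1 : ∀ a ∈ Finset.range ℓ, φ (w ((a : ℕ) : ZMod ℓ) * ((a : ℕ) : Zbar))
          = 1 - (if a = 0 then (1 : k) else 0) := by
        intro a ha
        have hlt : a < ℓ := Finset.mem_range.mp ha
        have h2 := hw2 ((a : ℕ) : ZMod ℓ)
        rw [ZMod.val_natCast_of_lt hlt] at h2
        rw [map_mul, map_natCast, h2]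
        have h3 : (((a : ℕ) : ZMod ℓ) = 0) ↔ a = 0 := by
          rw [ZMod.natCast_eq_zero_iff]
          constructor
          · intro h
            exact Nat.eq_zero_of_dvd_of_lt h hlt
          · rintro rfl
            exact dvd_zero _
        by_cases ha0 : a = 0
        · rw [if_pos (h3.mpr ha0), if_pos ha0, sub_self]
        · rw [if_neg (fun h => ha0 (h3.mp h)), if_neg ha0, sub_zero]
      rw [Finset.sum_congr rfl h1, Finset.sum_sub_distrib, Finset.sum_const, Finset.card_range,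
        Finset.sum_ite_eq' (Finset.range ℓ) 0 (fun _ => (1 : k)),
        if_pos (Finset.mem_range.mpr hℓ.out.pos), nsmul_eq_mul, mul_one,
        CharP.cast_eq_zero k ℓ]
      ring
  · refine ⟨2 * ((ℓ : ℕ) : Zbar) * ∑ d ∈ n.divisors, w ((d : ℕ) : ZMod ℓ), ?_, ?_⟩
    · rw [if_neg hn]
      push_cast
      congr 1
      refine Finset.sum_congr rfl fun a _ => ?_
      rw [hw1]
    · rw [if_neg hn, map_mul, map_mul, map_natCast, CharP.cast_eq_zero k ℓ, mul_zero, zero_mul]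

end Teich

end Fermat.Agent.S48x.EWP
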