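import Fermat.Agent.S48x.EWP.Level
import Fermat.Agent.S48x.EWP.QExp
import Fermat.Agent.S48x.EWP.Teichmuller
import Fermat.Agent.S48x.DS2.Contract

/-!
# P-S48 (E-WP): the weight-one Eisenstein series congruent to `1` (helper30, helper40, helper42)

For an odd prime `ℓ` and a ring homomorphism `φ : Zbar →+* k` to a field of characteristic `ℓ`,
the Eisenstein series `E_{1,ψ}`, `ψ = teichInv φ` (`ψ ≡ ω⁻¹` modulo `ker φ`), is a modular form of
weight one on `Γ₁(ℓ)` with nebentypus `ψ`, with algebraic integer coefficients congruent to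
`1, 0, 0, …` modulo `ker φ`: the contract `DS2.EisensteinCongrOne ℓ φ`.
-/

set_option autoImplicit false

namespace Fermat.Agent.S48x.EWP

open UpperHalfPlane hiding I
open Complex CongruenceSubgroup
open scoped Real MatrixGroups ModularForm

local notation "Zbar" => integralClosure ℤ ℂ

noncomputable section

variable {ℓ : ℕ} [NeZero ℓ] [hℓ : Fact ℓ.Prime]

/-- the value of the normalised Eisenstein series -/
theorem EisMF_eq (ψ : DirichletCharacter ℂ ℓ) (τ : ℍ) :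
    EisMF ℓ ψ (-(1 : ℂ) / (2 * π * I)) τ =
      (-(ℓ : ℂ) / (2 * π * I)) *
        ∑ a ∈ Finset.range ℓ, ψ ((a : ℕ) : ZMod ℓ) * Zv ℓ (a : ℤ) 0 (mulTau ℓ hℓ.out.pos τ) := by
  rw [EisMF_apply, EisFun_eq]
  ring

/-- the `q`-expansion coefficients of the normalised Eisenstein series -/
theorem qCoeff_EisMF (ψ : DirichletCharacter ℂ ℓ) (hψ : ψ (-1) = -1) (n : ℕ) :
    ModularFormClass.qCoeff (EisMF ℓ ψ (-(1 : ℂ) / (2 * π * I))) n =
      (if n = 0 then -∑ a ∈ Finset.range ℓ, ψ ((a : ℕ) : ZMod ℓ) * (a : ℂ)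
        else 2 * (ℓ : ℂ) * ∑ d ∈ n.divisors, ψ ((d : ℕ) : ZMod ℓ)) := by
  have h1 : (1 : ℝ) ∈ ((Gamma1 ℓ : Subgroup SL(2, ℤ)) : Subgroup (GL (Fin 2) ℝ)).strictPeriods := by
    simp [CongruenceSubgroup.strictPeriods_Gamma1]
  have h := ModularFormClass.qExpansion_coeff_unique (h := 1) one_pos h1
    (f := EisMF ℓ ψ (-(1 : ℂ) / (2 * π * I)))
    (c := fun n : ℕ => (if n = 0 then -∑ a ∈ Finset.range ℓ, ψ ((a : ℕ) : ZMod ℓ) * (a : ℂ)
        else 2 * (ℓ : ℂ) * ∑ d ∈ n.divisors, ψ ((d : ℕ) : ZMod ℓ)))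
    (fun τ => by
      rw [EisMF_eq]
      exact hasSum_qExp ℓ hℓ.out.pos ψ hψ τ) n
  exact h.symm

/-- **E-WP: the weight-one Eisenstein series congruent to `1` modulo `ker φ`.** -/
theorem eisensteinCongrOne (h2 : ℓ ≠ 2) {k : Type} [Field k] [CharP k ℓ] (φ : Zbar →+* k) :
    DS2.EisensteinCongrOne ℓ φ := by
  refine ⟨teichInv φ, EisMF ℓ (teichInv φ) (-(1 : ℂ) / (2 * π * I)), ?_, ?_, ?_⟩
  · intro γ hγ
    exact EisMF_slash_Gamma0 (teichInv φ) _ γ hγ
  · exact teichInv_spec φ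
  · intro n
    obtain ⟨z, hz1, hz2⟩ := teichInv_coeff φ n
    refine ⟨z, ?_, hz2⟩
    rw [hz1, qCoeff_EisMF (teichInv φ) (teichInv_neg_one φ h2)]

end

end Fermat.Agent.S48x.EWP
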