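import Mathlib

/-!
# P-S48 (E-WP): shared definitions (helper30, helper42)

* `cotTermC z τ m = π cot(π (z + (m+1) τ)) + π cot(π (z - (m+1) τ))`;
* `cotC z τ = π cot(π z) + ∑_{m ≥ 0} cotTermC z τ m` (`= ζ(z; ℤτ + ℤ) - z G₂(τ)`, see `Bridge.lean`);
* `Zv l a b τ = cotC ((a τ + b) / l) τ + 2 π i a / l`, the weight-one Eisenstein series attached to
  the `l`-torsion point `(a τ + b) / l` (it only depends on `(a, b)` modulo `l`).
-/

set_option autoImplicit false

namespace Fermat.Agent.S48x.EWP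

open UpperHalfPlane hiding I
open Complex
open scoped Real

noncomputable section

/-- the `m`-th term of the cotangent series -/
def cotTermC (z : ℂ) (τ : ℍ) (m : ℕ) : ℂ :=
  π * cot (π * (z + (m + 1) * (τ : ℂ))) + π * cot (π * (z - (m + 1) * (τ : ℂ)))

/-- the cotangent series `∑_{m ∈ ℤ} π cot(π (z + m τ))` (symmetric summation) -/
def cotC (z : ℂ) (τ : ℍ) : ℂ := π * cot (π * z) + ∑' m : ℕ, cotTermC z τ m

/-- the weight-one Eisenstein series of the torsion point `(a τ + b) / l` -/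
def Zv (l : ℕ) (a b : ℤ) (τ : ℍ) : ℂ :=
  cotC (((a : ℂ) * (τ : ℂ) + b) / l) τ + 2 * π * I * a / l

end

end Fermat.Agent.S48x.EWP
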