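import Fermat.Agent.S48x.EWP.ZetaSum
import Fermat.Agent.S48x.EWP.Defs

/-!
# P-S48 (E-WP): the bridge `ζ(z) - z G₂ = ∑_m π cot(π (z + m τ))` (helper30)

For `z ∉ ℤτ + ℤ` the symmetric partial sums `∑_{|m| ≤ N} π cot(π (z + m τ))` converge to
`zetaW z τ - z * G2 τ` (Fubini for the absolutely summable family of `zetaW`, the cotangent
partial fractions for the inner sums, and the definition of `G2` by symmetric summation).
-/

set_option autoImplicit false

namespace Fermat.Agent.S48x.EWP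

open UpperHalfPlane hiding I
open Complex Filter Topology EisensteinSeries Matrix Finset SummationFilter
open scoped Real MatrixGroups

noncomputable section

/-! ### Sums over `ℤ` by pairs -/

theorem tsum_int_eq_of_pairs {g : ℤ → ℂ} (hg : Summable g) {c : ℕ → ℂ} {s : ℂ}
    (hc : HasSum c s) (h : ∀ n : ℕ, g ((n : ℤ) + 1) + g (-((n : ℤ) + 1)) = c n) :
    ∑' n, g n = g 0 + s := by
  have h1 := hg.hasSum.nat_add_neg
  have h2 := (hasSum_nat_add_iff' (f := fun n : ℕ => g n + g (-(n : ℤ))) 1).mpr h1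
  have h3 : (fun n : ℕ => g ((n + 1 : ℕ) : ℤ) + g (-((n + 1 : ℕ) : ℤ))) = c := by
    funext n
    push_cast
    exact h n
  rw [h3] at h2
  have h4 := h2.unique hc
  simp only [Finset.range_one, Finset.sum_singleton, Nat.cast_zero, neg_zero] at h4
  linear_combination h4

/-- the cotangent partial fractions, in the form of a sum over `ℤ` of differences -/
theorem tsum_inv_add_sub {y y' : ℂ} (hy : y ∈ integerComplement) (hy' : y' ∈ integerComplement)
    (hs : Summable fun n : ℤ => 1 / (y + n) - 1 / (y' + n)) :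
    ∑' n : ℤ, (1 / (y + n) - 1 / (y' + n)) = π * cot (π * y) - π * cot (π * y') := by
  have h1 : HasSum (cotTerm y) (π * cot (π * y) - 1 / y) := by
    rw [cot_series_rep' hy]
    exact (summable_cotTerm hy).hasSum
  have h2 : HasSum (cotTerm y') (π * cot (π * y') - 1 / y') := by
    rw [cot_series_rep' hy']
    exact (summable_cotTerm hy').hasSum
  rw [tsum_int_eq_of_pairs hs (h1.sub h2)]
  · simp only [Int.cast_zero, add_zero]
    ring
  · intro n
    simp only [cotTerm, Int.cast_add, Int.cast_natCast, Int.cast_one, Int.cast_neg]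
    ring

/-- the cotangent partial fractions for the row `m = 0` (recall `1 / 0 = 0`) -/
theorem tsum_inv_add_sub_zero {z : ℂ} (hz : z ∈ integerComplement)
    (hs : Summable fun n : ℤ => 1 / (z + n) - 1 / (n : ℂ)) :
    ∑' n : ℤ, (1 / (z + n) - 1 / (n : ℂ)) = π * cot (π * z) := by
  have h1 : HasSum (cotTerm z) (π * cot (π * z) - 1 / z) := by
    rw [cot_series_rep' hz]
    exact (summable_cotTerm hz).hasSum
  rw [tsum_int_eq_of_pairs hs h1]
  · simp
  · intro n
    simp only [cotTerm, Int.cast_add, Int.cast_natCast, Int.cast_one, Int.cast_neg]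
    have h0 : ((n : ℂ) + 1) ≠ 0 := Nat.cast_add_one_ne_zero n
    field_simp
    ring

/-! ### The rows of the lattice sum -/

theorem lat_mk (τ : ℍ) (m n : ℤ) : lat τ ![m, n] = (m : ℂ) * τ + n := by
  simp [lat]

theorem zetaTerm_sub_eis (z : ℂ) (τ : ℍ) (m n : ℤ) :
    zetaTerm z τ ![m, n] - z * eisSummand 2 ![m, n] τ =
      1 / (z + ((m : ℂ) * τ + n)) - 1 / ((m : ℂ) * τ + n) := by
  have h : eisSummand 2 ![m, n] τ = (((m : ℂ) * τ + n) ^ 2)⁻¹ := by
    simp [eisSummand, zpow_ofNat]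
  rw [h, zetaTerm, lat_mk]
  ring

theorem summable_zetaTerm_prod (z : ℂ) (τ : ℍ) :
    Summable fun p : ℤ × ℤ => zetaTerm z τ ![p.1, p.2] := by
  have h := ((finTwoArrowEquiv ℤ).symm.summable_iff).mpr (summable_zetaTerm z τ)
  refine h.congr fun p => ?_
  simp [finTwoArrowEquiv_symm_apply]

theorem tsum_zetaTerm_prod (z : ℂ) (τ : ℍ) :
    ∑' p : ℤ × ℤ, zetaTerm z τ ![p.1, p.2] = zetaW z τ := by
  rw [zetaW, ← (finTwoArrowEquiv ℤ).symm.tsum_eq (zetaTerm z τ)]
  refine tsum_congr fun p => ?_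
  simp [finTwoArrowEquiv_symm_apply]

theorem summable_zetaTerm_row (z : ℂ) (τ : ℍ) (m : ℤ) :
    Summable fun n : ℤ => zetaTerm z τ ![m, n] :=
  (summable_zetaTerm_prod z τ).prod_factor m

theorem hasSum_zetaTerm_rows (z : ℂ) (τ : ℍ) :
    HasSum (fun m : ℤ => ∑' n : ℤ, zetaTerm z τ ![m, n]) (zetaW z τ) := by
  have h := (summable_zetaTerm_prod z τ).hasSum
  rw [tsum_zetaTerm_prod] at h
  exact h.prod_fiberwise fun m => (summable_zetaTerm_row z τ m).hasSum

/-- the `m`-th row of `ζ(z) - z G₂` -/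
def rowC (z : ℂ) (τ : ℍ) (m : ℤ) : ℂ :=
  ∑' n : ℤ, (1 / (z + ((m : ℂ) * τ + n)) - 1 / ((m : ℂ) * τ + n))

theorem summable_rowC (z : ℂ) (τ : ℍ) (m : ℤ) :
    Summable fun n : ℤ => (1 / (z + ((m : ℂ) * τ + n)) - 1 / ((m : ℂ) * τ + n)) := by
  have h := (summable_zetaTerm_row z τ m).sub ((e2Summand_summable m τ).mul_left z)
  refine h.congr fun n => ?_
  exact zetaTerm_sub_eis z τ m n

theorem rowC_eq (z : ℂ) (τ : ℍ) (m : ℤ) :
    rowC z τ m = (∑' n : ℤ, zetaTerm z τ ![m, n]) - z * e2Summand m τ := by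
  rw [e2Summand, ← tsum_mul_left, ← (summable_zetaTerm_row z τ m).tsum_sub
    ((e2Summand_summable m τ).mul_left z), rowC]
  exact tsum_congr fun n => (zetaTerm_sub_eis z τ m n).symm

theorem tendsto_Icc_atTop :
    Tendsto (fun N : ℕ => Finset.Icc (-(N : ℤ)) N) atTop atTop := by
  refine tendsto_atTop_finset_of_monotone ?_ ?_
  · intro a b hab
    refine Finset.Icc_subset_Icc ?_ ?_
    · exact neg_le_neg (by exact_mod_cast hab)
    · exact_mod_cast hab
  · intro x
    refine ⟨x.natAbs, ?_⟩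
    rw [Finset.mem_Icc]
    constructor
    · have := neg_abs_le x
      simpa [Int.natCast_natAbs] using this
    · have := le_abs_self x
      simpa [Int.natCast_natAbs] using this

theorem tendsto_sum_rowC (z : ℂ) (τ : ℍ) :
    Tendsto (fun N : ℕ => ∑ m ∈ Finset.Icc (-(N : ℤ)) N, rowC z τ m) atTop
      (𝓝 (zetaW z τ - z * G2 τ)) := by
  have h1 : Tendsto (fun N : ℕ => ∑ m ∈ Finset.Icc (-(N : ℤ)) N, ∑' n : ℤ, zetaTerm z τ ![m, n])
      atTop (𝓝 (zetaW z τ)) := (hasSum_zetaTerm_rows z τ).comp tendsto_Icc_atTop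
  have h2 : Tendsto (fun N : ℕ => ∑ m ∈ Finset.Icc (-(N : ℤ)) N, e2Summand m τ)
      atTop (𝓝 (G2 τ)) := by
    have h := (summable_e2Summand_symmetricIcc τ).hasSum
    unfold HasSum at h
    rw [symmetricIcc_eq_map_Icc_nat, tendsto_map'_iff] at h
    exact h
  have h3 := h1.sub (h2.const_mul z)
  refine h3.congr fun N => ?_
  rw [Finset.mul_sum, ← Finset.sum_sub_distrib]
  exact Finset.sum_congr rfl fun m _ => (rowC_eq z τ m).symm

/-! ### Evaluation of the rows -/

theorem int_mul_mem_integerComplement (τ : ℍ) {m : ℤ} (hm : m ≠ 0) :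
    (m : ℂ) * (τ : ℂ) ∈ integerComplement := by
  rw [mem_integerComplement_iff]
  rintro ⟨n, hn⟩
  have h := congrArg Complex.im hn
  simp only [intCast_im, mul_im, intCast_re, coe_im, zero_mul, add_zero] at h
  have h1 : (m : ℝ) ≠ 0 := by exact_mod_cast hm
  exact (mul_ne_zero h1 τ.im_ne_zero) h.symm

theorem cot_neg' (x : ℂ) : cot (-x) = -cot x := by
  rw [Complex.cot_eq_cos_div_sin, Complex.cot_eq_cos_div_sin, Complex.cos_neg, Complex.sin_neg,
    div_neg]

/-- the odd correction term -/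
def rowD (τ : ℍ) (m : ℤ) : ℂ := if m = 0 then 0 else π * cot (π * ((m : ℂ) * τ))

theorem rowD_neg (τ : ℍ) (m : ℤ) : rowD τ (-m) = -rowD τ m := by
  unfold rowD
  by_cases hm : m = 0
  · simp [hm]
  · rw [if_neg hm, if_neg (neg_ne_zero.mpr hm)]
    push_cast
    rw [neg_mul, mul_neg, cot_neg']
    ring

theorem sum_rowD (τ : ℍ) (N : ℕ) : ∑ m ∈ Finset.Icc (-(N : ℤ)) N, rowD τ m = 0 := by
  have h : ∑ m ∈ Finset.Icc (-(N : ℤ)) N, rowD τ m =
      ∑ m ∈ Finset.Icc (-(N : ℤ)) N, rowD τ (-m) := by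
    refine Finset.sum_nbij' (fun m => -m) (fun m => -m) ?_ ?_ ?_ ?_ ?_
    · intro m hm
      rw [Finset.mem_Icc] at hm ⊢
      constructor <;> linarith [hm.1, hm.2]
    · intro m hm
      rw [Finset.mem_Icc] at hm ⊢
      constructor <;> linarith [hm.1, hm.2]
    · intro m _; simp
    · intro m _; simp
    · intro m _; simp
  simp_rw [rowD_neg, Finset.sum_neg_distrib] at h
  have h2 : (2 : ℂ) * ∑ m ∈ Finset.Icc (-(N : ℤ)) N, rowD τ m = 0 := by
    linear_combination h
  exact (mul_eq_zero.mp h2).resolve_left two_ne_zero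

/-- the lattice condition in terms of rows -/
theorem add_int_mul_mem_integerComplement {z : ℂ} {τ : ℍ}
    (hz : ∀ v : Fin 2 → ℤ, z + lat τ v ≠ 0) (m : ℤ) :
    z + (m : ℂ) * (τ : ℂ) ∈ integerComplement := by
  rw [mem_integerComplement_iff]
  rintro ⟨n, hn⟩
  apply hz ![m, -n]
  rw [lat_mk, ← add_assoc, ← hn]
  push_cast
  ring

theorem rowC_eval {z : ℂ} {τ : ℍ} (hz : ∀ v : Fin 2 → ℤ, z + lat τ v ≠ 0) (m : ℤ) :
    rowC z τ m = π * cot (π * (z + (m : ℂ) * τ)) - rowD τ m := by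
  by_cases hm : m = 0
  · subst hm
    have h1 := summable_rowC z τ 0
    simp only [Int.cast_zero, zero_mul, zero_add] at h1
    have hz0 : z ∈ integerComplement := by
      have := add_int_mul_mem_integerComplement hz 0
      simpa using this
    simp only [rowC, rowD, Int.cast_zero, zero_mul, zero_add, add_zero, if_true, sub_zero]
    exact tsum_inv_add_sub_zero hz0 h1
  · have h1 := summable_rowC z τ m
    have hy := add_int_mul_mem_integerComplement hz m
    have hy' := int_mul_mem_integerComplement τ hm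
    have h2 : ∀ n : ℤ, (1 / (z + ((m : ℂ) * τ + n)) - 1 / ((m : ℂ) * τ + n)) =
        (1 / (z + (m : ℂ) * τ + n) - 1 / ((m : ℂ) * τ + n)) := by
      intro n
      rw [add_assoc]
    simp only [rowC, rowD, if_neg hm]
    simp_rw [h2] at h1 ⊢
    exact tsum_inv_add_sub hy hy' h1

/-- **the bridge, symmetric form.** -/
theorem tendsto_sum_cot {z : ℂ} {τ : ℍ} (hz : ∀ v : Fin 2 → ℤ, z + lat τ v ≠ 0) :
    Tendsto (fun N : ℕ => ∑ m ∈ Finset.Icc (-(N : ℤ)) N, π * cot (π * (z + (m : ℂ) * τ))) atTop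
      (𝓝 (zetaW z τ - z * G2 τ)) := by
  refine (tendsto_sum_rowC z τ).congr fun N => ?_
  simp_rw [rowC_eval hz]
  rw [Finset.sum_sub_distrib, sum_rowD, sub_zero]

theorem sum_Icc_eq_range (f : ℤ → ℂ) (N : ℕ) :
    ∑ m ∈ Finset.Icc (-(N : ℤ)) N, f m =
      f 0 + ∑ m ∈ Finset.range N, (f ((m : ℤ) + 1) + f (-((m : ℤ) + 1))) := by
  induction N with
  | zero => simp
  | succ N ih =>
    rw [Finset.sum_range_succ, ← add_assoc, ← ih]
    have := Finset.sum_Icc_succ_eq_add_endpoints f (N := N)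
    push_cast
    rw [this]
    ring

/-- **the bridge**: partial sums of the cotangent series converge to `ζ(z) - z G₂`. -/
theorem tendsto_sum_cotTermC {z : ℂ} {τ : ℍ} (hz : ∀ v : Fin 2 → ℤ, z + lat τ v ≠ 0) :
    Tendsto (fun N : ℕ => π * cot (π * z) + ∑ m ∈ Finset.range N, cotTermC z τ m) atTop
      (𝓝 (zetaW z τ - z * G2 τ)) := by
  refine (tendsto_sum_cot hz).congr fun N => ?_
  rw [sum_Icc_eq_range]
  simp only [Int.cast_zero, zero_mul, add_zero]
  congr 1
  refine Finset.sum_congr rfl fun m _ => ?_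
  unfold cotTermC
  push_cast
  ring_nf

/-- **the bridge**: `cotC z τ = ζ(z) - z G₂(τ)` as soon as the cotangent series is summable. -/
theorem cotC_eq_zetaW_sub {z : ℂ} {τ : ℍ} (hz : ∀ v : Fin 2 → ℤ, z + lat τ v ≠ 0)
    (hs : Summable (cotTermC z τ)) : cotC z τ = zetaW z τ - z * G2 τ := by
  have h1 : Tendsto (fun N : ℕ => π * cot (π * z) + ∑ m ∈ Finset.range N, cotTermC z τ m) atTop
      (𝓝 (cotC z τ)) := (hs.hasSum.tendsto_sum_nat).const_add _
  exact tendsto_nhds_unique h1 (tendsto_sum_cotTermC hz)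

end

end Fermat.Agent.S48x.EWP
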