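import Fermat.Agent.S48x.Eis1.Adapter

/-!
# P-S48 (E-WP): periodicity of the weight-one Eisenstein series `Zv l a b` in `(a, b)` mod `l`
(helper42)

`Zv l a b τ = cotC ((a τ + b) / l) τ + 2 π i a / l` only depends on `(a, b)` modulo `l`, as long
as `(a τ + b) / l` is not a lattice point, i.e. `¬ (l ∣ a ∧ l ∣ b)`.
-/

set_option autoImplicit false

namespace Fermat.Agent.S48x.EWP

open UpperHalfPlane hiding I
open Complex
open scoped Real
open Fermat.Agent.S48x.Eis1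

noncomputable section

/-- a torsion point `(a τ + b) / l` with `(a, b) ≢ (0, 0)` mod `l` is not a lattice point -/
theorem notLat_of_not_dvd (l : ℕ) (hl : 0 < l) (a b : ℤ) (hv : ¬ ((l : ℤ) ∣ a ∧ (l : ℤ) ∣ b))
    (τ : ℍ) : NotLat (((a : ℂ) * (τ : ℂ) + b) / l) τ := by
  intro m n h0
  apply hv
  have hl0 : (l : ℂ) ≠ 0 := by exact_mod_cast hl.ne'
  have h1 : (((a + m * l : ℤ) : ℝ) : ℂ) * (τ : ℂ) + (((b + n * l : ℤ) : ℝ) : ℂ) = 0 := by
    have : (((a + m * l : ℤ) : ℝ) : ℂ) * (τ : ℂ) + (((b + n * l : ℤ) : ℝ) : ℂ)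
        = (l : ℂ) * (((a : ℂ) * (τ : ℂ) + b) / l + m * (τ : ℂ) + n) := by
      push_cast
      field_simp
      ring
    rw [this, h0, mul_zero]
  have him := congrArg Complex.im h1
  have hre := congrArg Complex.re h1
  simp only [Complex.add_im, Complex.mul_im, Complex.ofReal_re, Complex.ofReal_im, zero_mul,
    add_zero, Complex.zero_im, Complex.add_re, Complex.mul_re, Complex.zero_re] at him hre
  have hτ : (τ : ℂ).im ≠ 0 := τ.im_ne_zero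
  have ha : ((a + m * l : ℤ) : ℝ) = 0 := by
    rcases mul_eq_zero.mp him with h | h
    · exact h
    · exact absurd h hτ
  rw [ha] at hre
  have hb : ((b + n * l : ℤ) : ℝ) = 0 := by simpa using hre
  have ha' : a + m * l = 0 := by exact_mod_cast ha
  have hb' : b + n * l = 0 := by exact_mod_cast hb
  exact ⟨⟨-m, by linarith⟩, ⟨-n, by linarith⟩⟩

theorem Zv_add_left (l : ℕ) (hl : 0 < l) (a b : ℤ) (hv : ¬ ((l : ℤ) ∣ a ∧ (l : ℤ) ∣ b))
    (τ : ℍ) : Zv l (a + l) b τ = Zv l a b τ := by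
  have hl0 : (l : ℂ) ≠ 0 := by exact_mod_cast hl.ne'
  unfold Zv
  have h1 : ((((a + l : ℤ)) : ℂ) * (τ : ℂ) + b) / l = ((a : ℂ) * (τ : ℂ) + b) / l + τ := by
    push_cast
    field_simp
    ring
  rw [h1, cotC_add_tau' (notLat_of_not_dvd l hl a b hv τ)]
  push_cast
  field_simp
  ring

theorem Zv_add_right (l : ℕ) (hl : 0 < l) (a b : ℤ) (hv : ¬ ((l : ℤ) ∣ a ∧ (l : ℤ) ∣ b))
    (τ : ℍ) : Zv l a (b + l) τ = Zv l a b τ := by
  have hl0 : (l : ℂ) ≠ 0 := by exact_mod_cast hl.ne'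
  unfold Zv
  have h1 : ((a : ℂ) * (τ : ℂ) + ((b + l : ℤ) : ℂ)) / l = ((a : ℂ) * (τ : ℂ) + b) / l + 1 := by
    push_cast
    field_simp
    ring
  rw [h1, cotC_add_one' (notLat_of_not_dvd l hl a b hv τ)]

theorem Zv_add_left_mul (l : ℕ) (hl : 0 < l) (a b : ℤ) (hv : ¬ ((l : ℤ) ∣ a ∧ (l : ℤ) ∣ b))
    (τ : ℍ) (k : ℤ) : Zv l (a + k * l) b τ = Zv l a b τ := by
  have key : ∀ (a : ℤ), ¬ ((l : ℤ) ∣ a ∧ (l : ℤ) ∣ b) → ∀ k : ℕ,
      Zv l (a + (k : ℤ) * l) b τ = Zv l a b τ := by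
    intro a hv k
    induction k with
    | zero => simp
    | succ k ih =>
      have hv' : ¬ ((l : ℤ) ∣ a + (k : ℤ) * l ∧ (l : ℤ) ∣ b) := by
        rintro ⟨h1, h2⟩
        exact hv ⟨(Int.dvd_add_left (Dvd.intro_left _ rfl)).mp h1, h2⟩
      have := Zv_add_left l hl (a + (k : ℤ) * l) b hv' τ
      rw [← ih, ← this]
      congr 1
      push_cast
      ring
  rcases Int.le_total 0 k with hk | hk
  · obtain ⟨n, rfl⟩ := Int.eq_ofNat_of_zero_le hk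
    exact key a hv n
  · obtain ⟨n, hn⟩ := Int.eq_ofNat_of_zero_le (neg_nonneg.mpr hk)
    have hv' : ¬ ((l : ℤ) ∣ a + k * l ∧ (l : ℤ) ∣ b) := by
      rintro ⟨h1, h2⟩
      exact hv ⟨(Int.dvd_add_left (Dvd.intro_left _ rfl)).mp h1, h2⟩
    have := key (a + k * l) hv' n
    rw [← this]
    congr 1
    rw [← hn]
    ring

theorem Zv_add_right_mul (l : ℕ) (hl : 0 < l) (a b : ℤ) (hv : ¬ ((l : ℤ) ∣ a ∧ (l : ℤ) ∣ b))
    (τ : ℍ) (k : ℤ) : Zv l a (b + k * l) τ = Zv l a b τ := by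
  have key : ∀ (b : ℤ), ¬ ((l : ℤ) ∣ a ∧ (l : ℤ) ∣ b) → ∀ k : ℕ,
      Zv l a (b + (k : ℤ) * l) τ = Zv l a b τ := by
    intro b hv k
    induction k with
    | zero => simp
    | succ k ih =>
      have hv' : ¬ ((l : ℤ) ∣ a ∧ (l : ℤ) ∣ b + (k : ℤ) * l) := by
        rintro ⟨h1, h2⟩
        exact hv ⟨h1, (Int.dvd_add_left (Dvd.intro_left _ rfl)).mp h2⟩
      have := Zv_add_right l hl a (b + (k : ℤ) * l) hv' τ
      rw [← ih, ← this]
      congr 1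
      push_cast
      ring
  rcases Int.le_total 0 k with hk | hk
  · obtain ⟨n, rfl⟩ := Int.eq_ofNat_of_zero_le hk
    exact key b hv n
  · obtain ⟨n, hn⟩ := Int.eq_ofNat_of_zero_le (neg_nonneg.mpr hk)
    have hv' : ¬ ((l : ℤ) ∣ a ∧ (l : ℤ) ∣ b + k * l) := by
      rintro ⟨h1, h2⟩
      exact hv ⟨h1, (Int.dvd_add_left (Dvd.intro_left _ rfl)).mp h2⟩
    have := key (b + k * l) hv' n
    rw [← this]
    congr 1
    rw [← hn]
    ring

/-- `Zv l a b` only depends on `(a, b)` modulo `l`. -/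
theorem Zv_congr (l : ℕ) (hl : 0 < l) (a b a' b' : ℤ) (hv : ¬ ((l : ℤ) ∣ a ∧ (l : ℤ) ∣ b))
    (ha : a ≡ a' [ZMOD l]) (hb : b ≡ b' [ZMOD l]) (τ : ℍ) : Zv l a' b' τ = Zv l a b τ := by
  obtain ⟨k, hk⟩ := ha.symm.dvd
  obtain ⟨j, hj⟩ := hb.symm.dvd
  have ha' : a' = a + (-k) * l := by linarith
  have hb' : b' = b + (-j) * l := by linarith
  have hv' : ¬ ((l : ℤ) ∣ a' ∧ (l : ℤ) ∣ b) := by
    rintro ⟨h1, h2⟩
    refine hv ⟨?_, h2⟩
    rw [ha'] at h1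
    exact (Int.dvd_add_left (Dvd.intro_left _ rfl)).mp h1
  rw [hb', Zv_add_right_mul l hl a' b hv' τ (-j), ha', Zv_add_left_mul l hl a b hv τ (-k)]

end

end Fermat.Agent.S48x.EWP
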