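import Fermat.Agent.S48x.Eis1.Adapter
import Fermat.Agent.S48x.EWP.Bridge

/-!
# P-S48 (E-WP): the slash law of the weight-one Eisenstein series `Zv` (helper30)

* `cotC_smul` : `cotC (z / (cτ+d)) (γ • τ) = (cτ+d) * cotC z τ + 2 π i c z` for `γ ∈ SL(2, ℤ)`
  (homogeneity of the Weierstrass zeta function + quasi-modularity of `G₂`);
* `Zv_smul` : `Zv l a b (γ • τ) = (cτ+d) * Zv l a' b' τ` with `(a', b') = (a, b) γ`;
* `Zv_slash` : the same in slash notation, `Zv l a b ∣[1] γ = Zv l a' b'`.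
-/

set_option autoImplicit false

namespace Fermat.Agent.S48x.EWP

open UpperHalfPlane hiding I
open Complex Filter Topology EisensteinSeries Matrix
open Fermat.Agent.S48x.Eis1 (NotLat)
open scoped Real MatrixGroups ModularForm

noncomputable section

theorem notLat_iff {z : ℂ} {τ : ℍ} : NotLat z τ ↔ ∀ v : Fin 2 → ℤ, z + lat τ v ≠ 0 := by
  constructor
  · intro h v
    have := h (v 0) (v 1)
    rwa [add_assoc] at this
  · intro h m n
    have := h ![m, n]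
    rw [lat_mk] at this
    rwa [add_assoc]

theorem notLat_smul {z : ℂ} {τ : ℍ} (h : NotLat z τ) (γ : SL(2, ℤ)) :
    NotLat (z / denom γ τ) (γ • τ) := by
  rw [notLat_iff] at h ⊢
  intro v
  rw [lat_smul, ← add_div]
  exact div_ne_zero (h _) (denom_ne_zero γ τ)

/-- quasi-modularity of `G₂`, pointwise -/
theorem G2_smul (γ : SL(2, ℤ)) (τ : ℍ) :
    G2 (γ • τ) = denom γ τ ^ 2 * G2 τ - 2 * π * I * (γ 1 0 : ℤ) * denom γ τ := by
  have hj : denom γ τ ≠ 0 := denom_ne_zero γ τ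
  have h := congrFun (G2_slash_action γ) τ
  rw [ModularForm.SL_slash_apply, Pi.sub_apply, D2] at h
  have h2 : G2 (γ • τ) = (G2 τ - 2 * π * I * (γ 1 0 : ℤ) / denom γ τ) * denom γ τ ^ 2 := by
    rw [← h, mul_assoc, ← zpow_natCast, ← zpow_add₀ hj]
    simp
  rw [h2]
  field_simp

/-- **the transformation law of the cotangent series.** -/
theorem cotC_smul (γ : SL(2, ℤ)) {z : ℂ} {τ : ℍ} (h : NotLat z τ) :
    cotC (z / denom γ τ) (γ • τ) = denom γ τ * cotC z τ + 2 * π * I * (γ 1 0 : ℤ) * z := by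
  have hj : denom γ τ ≠ 0 := denom_ne_zero γ τ
  rw [Eis1.cotC_eq_zetaW_sub' (notLat_smul h γ), Eis1.cotC_eq_zetaW_sub' h, zetaW_smul, G2_smul]
  field_simp
  ring

/-! ### The torsion points -/

/-- the point `(a τ + b) / l` is not a lattice point unless `l ∣ a` and `l ∣ b` -/
theorem notLat_torsion {l : ℕ} (hl : 0 < l) {a b : ℤ} (hv : ¬ ((l : ℤ) ∣ a ∧ (l : ℤ) ∣ b))
    (τ : ℍ) : NotLat (((a : ℂ) * (τ : ℂ) + b) / l) τ := by
  intro m n h0
  apply hv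
  have hl0 : (l : ℂ) ≠ 0 := Nat.cast_ne_zero.mpr hl.ne'
  have h1 : (((a + l * m : ℤ) : ℂ)) * (τ : ℂ) + ((b + l * n : ℤ) : ℂ) = 0 := by
    have : ((a : ℂ) * (τ : ℂ) + b) / l + m * (τ : ℂ) + n =
        ((((a + l * m : ℤ) : ℂ)) * (τ : ℂ) + ((b + l * n : ℤ) : ℂ)) / l := by
      push_cast
      field_simp
      ring
    rw [this, div_eq_zero_iff] at h0
    exact h0.resolve_right hl0
  have him := congrArg Complex.im h1
  simp only [add_im, mul_im, intCast_re, intCast_im, coe_im, zero_mul, add_zero, zero_im] at him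
  have ha : ((a + l * m : ℤ) : ℝ) = 0 := by
    rcases mul_eq_zero.mp him with h | h
    · exact h
    · exact absurd h τ.im_ne_zero
  have ha' : a + l * m = 0 := by exact_mod_cast ha
  rw [ha'] at h1
  simp only [Int.cast_zero, zero_mul, zero_add] at h1
  have hb' : b + l * n = 0 := by exact_mod_cast h1
  constructor
  · exact ⟨-m, by linarith⟩
  · exact ⟨-n, by linarith⟩

/-- non-divisibility is invariant under `SL(2, ℤ)` -/
theorem not_dvd_vecMul {l : ℕ} {a b : ℤ} (hv : ¬ ((l : ℤ) ∣ a ∧ (l : ℤ) ∣ b)) (γ : SL(2, ℤ)) :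
    ¬ ((l : ℤ) ∣ a * γ 0 0 + b * γ 1 0 ∧ (l : ℤ) ∣ a * γ 0 1 + b * γ 1 1) := by
  rintro ⟨h1, h2⟩
  apply hv
  have hdet : γ 0 0 * γ 1 1 - γ 0 1 * γ 1 0 = 1 := by
    have := γ.2
    rwa [Matrix.det_fin_two] at this
  constructor
  · have : a = (a * γ 0 0 + b * γ 1 0) * γ 1 1 - (a * γ 0 1 + b * γ 1 1) * γ 1 0 := by
      linear_combination (-a) * hdet
    rw [this]
    exact dvd_sub (Dvd.dvd.mul_right h1 _) (Dvd.dvd.mul_right h2 _)
  · have : b = (a * γ 0 1 + b * γ 1 1) * γ 0 0 - (a * γ 0 0 + b * γ 1 0) * γ 0 1 := by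
      linear_combination (-b) * hdet
    rw [this]
    exact dvd_sub (Dvd.dvd.mul_right h2 _) (Dvd.dvd.mul_right h1 _)

theorem coe_smul_eq (γ : SL(2, ℤ)) (τ : ℍ) :
    ((γ • τ : ℍ) : ℂ) = ((γ 0 0 : ℤ) * (τ : ℂ) + (γ 0 1 : ℤ)) / ((γ 1 0 : ℤ) * (τ : ℂ) + (γ 1 1 : ℤ)) := by
  rw [UpperHalfPlane.specialLinearGroup_apply]
  simp

theorem denom_eq (γ : SL(2, ℤ)) (τ : ℍ) :
    denom γ τ = (γ 1 0 : ℤ) * (τ : ℂ) + (γ 1 1 : ℤ) := by
  simp [denom]

theorem torsion_smul_aux (A B C D t a b l' : ℂ) (hj : C * t + D ≠ 0) (hl : l' ≠ 0) :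
    (a * ((A * t + B) / (C * t + D)) + b) / l' =
      ((a * A + b * C) * t + (a * B + b * D)) / l' / (C * t + D) := by
  have hj' : t * C + D ≠ 0 := by rwa [mul_comm C t] at hj
  rw [div_div, div_eq_div_iff hl (mul_ne_zero hl hj), mul_div_assoc', div_add' _ _ _ hj,
    div_mul_eq_mul_div, div_eq_iff hj]
  ring

theorem Zv_smul_aux (A B C D t a b l' X : ℂ) (hdet : A * D - B * C = 1) (hl : l' ≠ 0) :
    (C * t + D) * X + 2 * π * I * C * (((a * A + b * C) * t + (a * B + b * D)) / l') +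
        2 * π * I * a / l' =
      (C * t + D) * (X + 2 * π * I * (a * A + b * C) / l') := by
  field_simp
  linear_combination (-(2 : ℂ) * a * π * I) * hdet

/-- **the transformation law of `Zv`.** -/
theorem Zv_smul {l : ℕ} (hl : 0 < l) {a b : ℤ} (hv : ¬ ((l : ℤ) ∣ a ∧ (l : ℤ) ∣ b))
    (γ : SL(2, ℤ)) (τ : ℍ) :
    Zv l a b (γ • τ) =
      denom γ τ * Zv l (a * γ 0 0 + b * γ 1 0) (a * γ 0 1 + b * γ 1 1) τ := by
  have hj : denom γ τ ≠ 0 := denom_ne_zero γ τ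
  have hl0 : (l : ℂ) ≠ 0 := Nat.cast_ne_zero.mpr hl.ne'
  have hdet : ((γ 0 0 : ℤ) : ℂ) * (γ 1 1 : ℤ) - (γ 0 1 : ℤ) * (γ 1 0 : ℤ) = 1 := by
    have := γ.2
    rw [Matrix.det_fin_two] at this
    exact_mod_cast this
  have hN := notLat_torsion hl (not_dvd_vecMul hv γ) τ
  have hx : ((a : ℂ) * ((γ • τ : ℍ) : ℂ) + b) / l =
      (((a * γ 0 0 + b * γ 1 0 : ℤ) : ℂ) * (τ : ℂ) + ((a * γ 0 1 + b * γ 1 1 : ℤ) : ℂ)) / l /
        denom γ τ := by
    rw [coe_smul_eq, denom_eq]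
    rw [denom_eq] at hj
    push_cast
    exact torsion_smul_aux _ _ _ _ _ _ _ _ hj hl0
  unfold Zv
  rw [hx, cotC_smul γ hN, denom_eq]
  push_cast
  exact Zv_smul_aux _ _ _ _ _ _ _ _ _ hdet hl0

/-- **the slash law of `Zv`.** -/
theorem Zv_slash {l : ℕ} (hl : 0 < l) {a b : ℤ} (hv : ¬ ((l : ℤ) ∣ a ∧ (l : ℤ) ∣ b))
    (γ : SL(2, ℤ)) :
    (Zv l a b) ∣[(1 : ℤ)] γ = Zv l (a * γ 0 0 + b * γ 1 0) (a * γ 0 1 + b * γ 1 1) := by
  funext τ
  have hj : denom γ τ ≠ 0 := denom_ne_zero γ τ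
  rw [ModularForm.SL_slash_apply, Zv_smul hl hv, _root_.zpow_neg, zpow_one, mul_comm (denom γ τ),
    mul_assoc, mul_inv_cancel₀ hj, mul_one]

end

end Fermat.Agent.S48x.EWP
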