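import Fermat.Agent.S48x.Eis1.Adapter
import Fermat.Agent.S48x.EWP.Slash
import Fermat.Agent.S48x.EWP.MulTau

/-!
# P-S48 (E-WP): the distribution relation (helper30)

* `sum_lambert` : `∑_{k < l} u ζ^k / (1 - u ζ^k) = l u^l / (1 - u^l)` for `|u| < 1`, `ζ` a primitive
  `l`-th root of unity;
* `sum_pc_div` : `∑_{k < l} π cot(π (y + k) / l) = l π cot(π y)` for `y ∉ ℝ`;
* `Zv_mulTau` : `Zv l a 0 (l τ) = (1 / l) ∑_{k < l} Zv l a k τ` for `l ∤ a`.
-/

set_option autoImplicit false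

namespace Fermat.Agent.S48x.EWP

open UpperHalfPlane hiding I
open Complex Filter Topology
open Fermat.Agent.S48x.Eis1 (NotLat ee pc)
open scoped Real

noncomputable section

/-! ### Roots of unity -/

theorem sum_pow_mul_eq {l : ℕ} {ζ : ℂ} (hζ : IsPrimitiveRoot ζ l) (n : ℕ) :
    ∑ k ∈ Finset.range l, ζ ^ (k * n) = if l ∣ n then (l : ℂ) else 0 := by
  split_ifs with h
  · obtain ⟨c, rfl⟩ := h
    have : ∀ k ∈ Finset.range l, ζ ^ (k * (l * c)) = 1 := by
      intro k _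
      rw [mul_comm k, mul_assoc, pow_mul, hζ.pow_eq_one, one_pow]
    rw [Finset.sum_congr rfl this]
    simp
  · have hx : ζ ^ n ≠ 1 := fun h1 => h ((hζ.pow_eq_one_iff_dvd n).mp h1)
    have h1 : ∀ k ∈ Finset.range l, ζ ^ (k * n) = (ζ ^ n) ^ k := by
      intro k _
      rw [mul_comm, pow_mul]
    rw [Finset.sum_congr rfl h1, geom_sum_eq hx, ← pow_mul, mul_comm, pow_mul, hζ.pow_eq_one,
      one_pow, sub_self, zero_div]

theorem hasSum_div_one_sub {x : ℂ} (hx : ‖x‖ < 1) :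
    HasSum (fun n : ℕ => x ^ (n + 1)) (x / (1 - x)) := by
  have h := (hasSum_geometric_of_norm_lt_one hx).mul_left x
  rw [← div_eq_mul_inv] at h
  refine h.congr_fun fun n => ?_
  rw [pow_succ']

/-- **the distribution relation for Lambert quotients.** -/
theorem sum_lambert {l : ℕ} (hl : 0 < l) {ζ : ℂ} (hζ : IsPrimitiveRoot ζ l) {u : ℂ}
    (hu : ‖u‖ < 1) :
    ∑ k ∈ Finset.range l, (u * ζ ^ k) / (1 - u * ζ ^ k) = l * (u ^ l / (1 - u ^ l)) := by
  have hζn : ‖ζ‖ = 1 := hζ.norm'_eq_one hl.ne'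
  have hk : ∀ k : ℕ, ‖u * ζ ^ k‖ < 1 := by
    intro k
    rw [norm_mul, norm_pow, hζn, one_pow, mul_one]
    exact hu
  have h1 : HasSum (fun n : ℕ => ∑ k ∈ Finset.range l, (u * ζ ^ k) ^ (n + 1))
      (∑ k ∈ Finset.range l, (u * ζ ^ k) / (1 - u * ζ ^ k)) :=
    hasSum_sum fun k _ => hasSum_div_one_sub (hk k)
  have h2 : ∀ n : ℕ, ∑ k ∈ Finset.range l, (u * ζ ^ k) ^ (n + 1) =
      u ^ (n + 1) * (if l ∣ n + 1 then (l : ℂ) else 0) := by
    intro n
    rw [← sum_pow_mul_eq hζ (n + 1), Finset.mul_sum]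
    refine Finset.sum_congr rfl fun k _ => ?_
    rw [mul_pow, ← pow_mul]
  simp_rw [h2] at h1
  have hul : ‖u ^ l‖ < 1 := by
    rw [norm_pow]
    exact pow_lt_one₀ (norm_nonneg u) hu hl.ne'
  have h3 : HasSum (fun m : ℕ => (l : ℂ) * (u ^ l) ^ (m + 1)) (l * (u ^ l / (1 - u ^ l))) :=
    (hasSum_div_one_sub hul).mul_left _
  let ι : ℕ → ℕ := fun m => l * (m + 1) - 1
  have hι : Function.Injective ι := by
    intro m m' h
    have h1 : 1 ≤ l * (m + 1) := Nat.one_le_iff_ne_zero.mpr (Nat.mul_ne_zero hl.ne' (Nat.succ_ne_zero m))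
    have h2 : 1 ≤ l * (m' + 1) :=
      Nat.one_le_iff_ne_zero.mpr (Nat.mul_ne_zero hl.ne' (Nat.succ_ne_zero m'))
    have h3 : l * (m + 1) = l * (m' + 1) := by
      simp only [ι] at h
      omega
    have := Nat.eq_of_mul_eq_mul_left hl h3
    omega
  have h4 : HasSum ((fun n : ℕ => u ^ (n + 1) * (if l ∣ n + 1 then (l : ℂ) else 0)) ∘ ι)
      (l * (u ^ l / (1 - u ^ l))) := by
    refine h3.congr_fun fun m => ?_
    have h1 : 1 ≤ l * (m + 1) := Nat.one_le_iff_ne_zero.mpr (Nat.mul_ne_zero hl.ne' (Nat.succ_ne_zero m))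
    simp only [Function.comp_apply, ι]
    rw [Nat.sub_add_cancel h1, if_pos (Dvd.intro _ rfl), pow_mul]
    ring
  have h5 := (hι.hasSum_iff (f := fun n : ℕ => u ^ (n + 1) * (if l ∣ n + 1 then (l : ℂ) else 0))
    (a := l * (u ^ l / (1 - u ^ l))) ?_).mp h4
  · exact h1.unique h5
  · intro n hn
    have : ¬ l ∣ n + 1 := by
      rintro ⟨c, hc⟩
      apply hn
      have hc0 : c ≠ 0 := by
        rintro rfl
        simp at hc
      refine ⟨c - 1, ?_⟩
      simp only [ι]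
      rw [Nat.sub_add_cancel (Nat.one_le_iff_ne_zero.mpr hc0), ← hc]
      omega
    rw [if_neg this, mul_zero]

/-! ### The cotangent -/

theorem ee_ne_one_of_im_ne_zero {z : ℂ} (hz : z.im ≠ 0) : ee z ≠ 1 := by
  intro h
  obtain ⟨n, rfl⟩ := (Eis1.ee_eq_one_iff z).mp h
  simp at hz

theorem ee_nat_mul (n : ℕ) (z : ℂ) : ee (n * z) = ee z ^ n := by
  unfold Eis1.ee
  rw [← Complex.exp_nat_mul]
  congr 1
  ring

theorem isPrimitiveRoot_ee {l : ℕ} (hl : 0 < l) : IsPrimitiveRoot (ee (1 / (l : ℂ))) l := by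
  have h := Complex.isPrimitiveRoot_exp l hl.ne'
  have : ee (1 / (l : ℂ)) = Complex.exp (2 * π * I / l) := by
    unfold Eis1.ee
    congr 1
    ring
  rw [this]
  exact h

theorem ee_add_div {l : ℕ} (_hl : 0 < l) (y : ℂ) (k : ℕ) :
    ee ((y + k) / l) = ee (y / l) * ee (1 / (l : ℂ)) ^ k := by
  rw [← ee_nat_mul, ← Eis1.ee_add]
  congr 1
  ring

theorem ee_div_pow {l : ℕ} (hl : 0 < l) (y : ℂ) : ee (y / l) ^ l = ee y := by
  have hl0 : (l : ℂ) ≠ 0 := Nat.cast_ne_zero.mpr hl.ne'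
  rw [← ee_nat_mul]
  congr 1
  field_simp

/-- **the distribution relation of the cotangent.** -/
theorem sum_pc_div {l : ℕ} (hl : 0 < l) {y : ℂ} (hy : y.im ≠ 0) :
    ∑ k ∈ Finset.range l, pc ((y + k) / l) = l * pc y := by
  have hl0 : (l : ℂ) ≠ 0 := Nat.cast_ne_zero.mpr hl.ne'
  have hlr : (0 : ℝ) < l := Nat.cast_pos.mpr hl
  have hyk : ∀ k : ℕ, ee ((y + k) / l) ≠ 1 := by
    intro k
    apply ee_ne_one_of_im_ne_zero
    have : ((y + k) / l).im = y.im / l := by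
      rw [Complex.div_natCast_im]
      simp
    rw [this]
    exact div_ne_zero hy hlr.ne'
  have hy1 : ee y ≠ 1 := ee_ne_one_of_im_ne_zero hy
  have hζ := isPrimitiveRoot_ee hl
  rcases lt_or_gt_of_ne hy with hneg | hpos
  · -- `Im y < 0`
    have hu : ‖ee (-y / l)‖ < 1 := by
      rw [Eis1.norm_ee, Real.exp_lt_one_iff]
      have : (-y / l).im = -y.im / l := by
        rw [Complex.div_natCast_im]
        simp
      rw [this]
      have : 0 < -y.im / l := div_pos (by linarith) hlr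
      nlinarith [Real.pi_pos]
    have h1 : ∀ k ∈ Finset.range l, pc ((y + k) / l) =
        π * I + 2 * π * I * ((ee (-y / l) * (ee (1 / (l : ℂ)))⁻¹ ^ k) /
          (1 - ee (-y / l) * (ee (1 / (l : ℂ)))⁻¹ ^ k)) := by
      intro k _
      rw [Eis1.pc_eq' _ (hyk k)]
      have : ee (-((y + k) / l)) = ee (-y / l) * (ee (1 / (l : ℂ)))⁻¹ ^ k := by
        rw [inv_pow, ← ee_nat_mul, ← Eis1.ee_neg, ← Eis1.ee_add]
        congr 1
        ring
      rw [this]
    rw [Finset.sum_congr rfl h1, Finset.sum_add_distrib, Finset.sum_const, Finset.card_range,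
      ← Finset.mul_sum, sum_lambert hl hζ.inv hu, Eis1.pc_eq' _ hy1]
    have : ee (-y / l) ^ l = ee (-y) := ee_div_pow hl (-y)
    rw [this, nsmul_eq_mul]
    ring
  · -- `0 < Im y`
    have hu : ‖ee (y / l)‖ < 1 := by
      rw [Eis1.norm_ee, Real.exp_lt_one_iff]
      have : (y / l).im = y.im / l := by
        rw [Complex.div_natCast_im]
      rw [this]
      have : 0 < y.im / l := div_pos hpos hlr
      nlinarith [Real.pi_pos]
    have h1 : ∀ k ∈ Finset.range l, pc ((y + k) / l) =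
        -(π * I) - 2 * π * I * ((ee (y / l) * ee (1 / (l : ℂ)) ^ k) /
          (1 - ee (y / l) * ee (1 / (l : ℂ)) ^ k)) := by
      intro k _
      rw [Eis1.pc_eq _ (hyk k), ee_add_div hl]
    rw [Finset.sum_congr rfl h1, Finset.sum_sub_distrib, Finset.sum_const, Finset.card_range,
      ← Finset.mul_sum, sum_lambert hl hζ hu, Eis1.pc_eq _ hy1, ee_div_pow hl, nsmul_eq_mul]
    ring

/-! ### The distribution relation for `Zv` -/

theorem cotTermC_eq_pc (z : ℂ) (τ : ℍ) (m : ℕ) :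
    cotTermC z τ m = pc (z + (m + 1) * (τ : ℂ)) + pc (z - (m + 1) * (τ : ℂ)) := rfl

theorem cotC_eq_pc (z : ℂ) (τ : ℍ) : cotC z τ = pc z + ∑' m : ℕ, cotTermC z τ m := rfl

/-- **the distribution relation: `Zv l a 0 (l τ) = (1 / l) ∑_{k < l} Zv l a k τ`.** -/
theorem Zv_mulTau {l : ℕ} (hl : 0 < l) {a : ℤ} (ha : ¬ (l : ℤ) ∣ a) (τ : ℍ) :
    Zv l a 0 (mulTau l hl τ) = (1 / (l : ℂ)) * ∑ k ∈ Finset.range l, Zv l a (k : ℤ) τ := by
  have hl0 : (l : ℂ) ≠ 0 := Nat.cast_ne_zero.mpr hl.ne'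
  have hv : ∀ k : ℕ, ¬ ((l : ℤ) ∣ a ∧ (l : ℤ) ∣ (k : ℤ)) := fun k h => ha h.1
  have hN : ∀ k : ℕ, NotLat (((a : ℂ) * (τ : ℂ) + ((k : ℤ) : ℂ)) / l) τ :=
    fun k => notLat_torsion hl (hv k) τ
  -- imaginary parts
  have him : ∀ c : ℤ, c ≠ 0 → ((c : ℂ) * (τ : ℂ)).im ≠ 0 := by
    intro c hc
    simp only [mul_im, intCast_re, intCast_im, coe_im, zero_mul, add_zero]
    exact mul_ne_zero (by exact_mod_cast hc) τ.im_ne_zero
  have hne : ∀ m : ℤ, a + m * l ≠ 0 := by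
    intro m h
    apply ha
    exact ⟨-m, by linarith⟩
  -- the distribution relation for each term
  have hd : ∀ m : ℤ, ∑ k ∈ Finset.range l,
      pc (((a : ℂ) * (τ : ℂ) + ((k : ℤ) : ℂ)) / l + m * (τ : ℂ)) =
        l * pc ((a : ℂ) * (τ : ℂ) + m * ((l : ℂ) * (τ : ℂ))) := by
    intro m
    have h1 := sum_pc_div hl (y := ((a + m * l : ℤ) : ℂ) * (τ : ℂ)) (him _ (hne m))
    have h2 : ((a + m * l : ℤ) : ℂ) * (τ : ℂ) = (a : ℂ) * (τ : ℂ) + m * ((l : ℂ) * (τ : ℂ)) := by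
      push_cast
      ring
    rw [h2] at h1
    rw [← h1]
    refine Finset.sum_congr rfl fun k _ => ?_
    congr 1
    push_cast
    field_simp
    ring
  have hz : ((a : ℂ) * ((mulTau l hl τ : ℍ) : ℂ) + ((0 : ℤ) : ℂ)) / l = (a : ℂ) * (τ : ℂ) := by
    rw [coe_mulTau]
    push_cast
    field_simp
    ring
  -- the sum of the cotangent series
  have hsum : ∑ k ∈ Finset.range l, cotC (((a : ℂ) * (τ : ℂ) + ((k : ℤ) : ℂ)) / l) τ =
      l * cotC ((a : ℂ) * (τ : ℂ)) (mulTau l hl τ) := by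
    simp_rw [cotC_eq_pc]
    rw [Finset.sum_add_distrib, mul_add, ← tsum_mul_left,
      ← Summable.tsum_finsetSum fun k _ => Eis1.summable_cotTermC' (hN k)]
    congr 1
    · have := hd 0
      simpa using this
    · refine tsum_congr fun m => ?_
      simp_rw [cotTermC_eq_pc]
      rw [Finset.sum_add_distrib, mul_add, coe_mulTau]
      congr 1
      · have := hd ((m : ℤ) + 1)
        push_cast at this ⊢
        rw [← this]
      · have := hd (-((m : ℤ) + 1))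
        push_cast at this ⊢
        simp only [neg_mul, ← sub_eq_add_neg] at this
        rw [← this]
  unfold Zv
  rw [hz, Finset.sum_add_distrib, hsum]
  simp only [Finset.sum_const, Finset.card_range, nsmul_eq_mul]
  field_simp

end

end Fermat.Agent.S48x.EWP
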