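import Fermat.Agent.S48x.EWP.Main

/-!
# P-S48 (E-WP): export in the shape consumed by `DS2.residualRepsExist_of_inputs` (helper30)

`hEis_all` is literally the hypothesis `hEis` of `DS2.residualRepsExist_of_inputs`
(`S48x/DS2/MainCore.lean`).
-/

set_option autoImplicit false

namespace Fermat.Agent.S48x.EWP

local notation "Zbar" => integralClosure ℤ ℂ

/-- the hypothesis `hEis` of `DS2.residualRepsExist_of_inputs`, verbatim -/
theorem hEis_all : ∀ (ℓ : ℕ) [NeZero ℓ], ℓ.Prime → ℓ ≠ 2 → ∀ (k : Type) [Field k] [CharP k ℓ]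
    (φ : Zbar →+* k), DS2.EisensteinCongrOne ℓ φ := by
  intro ℓ _ hℓ h2 k _ _ φ
  have : Fact ℓ.Prime := ⟨hℓ⟩
  exact eisensteinCongrOne h2 φ

end Fermat.Agent.S48x.EWP
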