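import Fermat.Agent.S48x.EWP.Distrib
import Fermat.Agent.S48x.EWP.CotSeries
import Fermat.Agent.S48x.Eis1.Holo

/-!
# P-S48 (E-WP): the weight-one Eisenstein series with character on `Γ₁(l)` (helper30)

For a prime `l` and a Dirichlet character `ψ` modulo `l` we put
`EisFun l ψ τ = ∑_{a, k mod l} ψ(a) Zv l a k τ`  (`= l ∑_a ψ(a) Zv l a 0 (l τ)`, `EisFun_eq`).
It is holomorphic, every `SL(2, ℤ)`-translate is bounded at `i∞`, and
`EisFun l ψ ∣[1] γ = ψ(d) • EisFun l ψ` for `γ ∈ Γ₀(l)` with lower right entry `d`.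
`EisMF l ψ c : ModularForm (Gamma1 l) 1` is `c • EisFun l ψ`.
-/

set_option autoImplicit false
set_option linter.unusedSectionVars false

namespace Fermat.Agent.S48x.EWP

open UpperHalfPlane hiding I
open Complex Filter Topology Matrix CongruenceSubgroup
open Fermat.Agent.S48x.Eis1 (NotLat)
open scoped Real MatrixGroups ModularForm Manifold

noncomputable section

variable (l : ℕ) [NeZero l] [hl : Fact l.Prime] (ψ : DirichletCharacter ℂ l)

/-- the Eisenstein combination -/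
def EisFun : ℍ → ℂ :=
  fun τ => ∑ a : ZMod l, ∑ k : ZMod l, ψ a * Zv l (a.val : ℤ) (k.val : ℤ) τ

variable {l}

theorem psi_zero : ψ 0 = 0 := MulChar.map_nonunit ψ (by simp)

theorem not_dvd_val {a : ZMod l} (ha : a ≠ 0) : ¬ (l : ℤ) ∣ ((a.val : ℕ) : ℤ) := by
  intro h
  have h1 : l ∣ a.val := Int.natCast_dvd_natCast.mp h
  have h2 : a.val < l := ZMod.val_lt a
  have h3 : a.val = 0 := Nat.eq_zero_of_dvd_of_lt h1 h2
  exact ha ((ZMod.val_eq_zero a).mp h3)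

theorem pos_l : 0 < l := hl.out.pos

/-! ### Sums over `ZMod l` and over `range l` -/

theorem sum_zmod_eq_sum_range {M : Type*} [AddCommMonoid M] (f : ℕ → M) :
    ∑ x : ZMod l, f x.val = ∑ i ∈ Finset.range l, f i := by
  obtain ⟨n, rfl⟩ : ∃ n, l = n + 1 := ⟨l - 1, (Nat.sub_add_cancel hl.out.pos).symm⟩
  exact Fin.sum_univ_eq_sum_range f (n + 1)

/-! ### The transformation law -/

/-- the `SL(2, ℤ)`-translates of `EisFun` -/
def EisFunTr (γ : SL(2, ℤ)) : ℍ → ℂ :=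
  fun τ => ∑ a : ZMod l, ∑ k : ZMod l, ψ a *
    Zv l ((a.val : ℤ) * γ 0 0 + (k.val : ℤ) * γ 1 0) ((a.val : ℤ) * γ 0 1 + (k.val : ℤ) * γ 1 1) τ

theorem EisFun_smul (γ : SL(2, ℤ)) (τ : ℍ) :
    EisFun l ψ (γ • τ) = denom γ τ * EisFunTr ψ γ τ := by
  unfold EisFun EisFunTr
  rw [Finset.mul_sum]
  refine Finset.sum_congr rfl fun a _ => ?_
  rw [Finset.mul_sum]
  refine Finset.sum_congr rfl fun k _ => ?_
  by_cases ha : a = 0
  · subst ha
    rw [psi_zero, zero_mul, zero_mul, mul_zero]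
  · rw [Zv_smul pos_l (fun h => not_dvd_val ha h.1) γ τ]
    ring

theorem EisFun_slash (γ : SL(2, ℤ)) : EisFun l ψ ∣[(1 : ℤ)] γ = EisFunTr ψ γ := by
  funext τ
  have hj : denom γ τ ≠ 0 := denom_ne_zero γ τ
  rw [ModularForm.SL_slash_apply, EisFun_smul, _root_.zpow_neg, zpow_one, mul_comm (denom γ τ),
    mul_assoc, mul_inv_cancel₀ hj, mul_one]

/-! ### Holomorphy and boundedness -/

theorem isBoundedAtImInfty_sum {ι : Type*} (s : Finset ι) (f : ι → ℍ → ℂ)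
    (h : ∀ i ∈ s, IsBoundedAtImInfty (f i)) : IsBoundedAtImInfty (fun τ => ∑ i ∈ s, f i τ) := by
  classical
  induction s using Finset.induction_on with
  | empty =>
    simp only [Finset.sum_empty]
    exact const_boundedAtFilter _ (0 : ℂ)
  | insert i s hi ih =>
    simp only [Finset.sum_insert hi]
    exact (h i (Finset.mem_insert_self i s)).add
      (ih fun j hj => h j (Finset.mem_insert_of_mem hj))

theorem isBoundedAtImInfty_EisFunTr (γ : SL(2, ℤ)) : IsBoundedAtImInfty (EisFunTr ψ γ) := by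
  unfold EisFunTr
  refine isBoundedAtImInfty_sum _ _ fun a _ => isBoundedAtImInfty_sum _ _ fun k _ => ?_
  by_cases ha : a = 0
  · subst ha
    simp only [psi_zero, zero_mul]
    exact const_boundedAtFilter _ (0 : ℂ)
  · have hv : ¬ ((l : ℤ) ∣ ((a.val : ℕ) : ℤ) ∧ (l : ℤ) ∣ ((k.val : ℕ) : ℤ)) :=
      fun h => not_dvd_val ha h.1
    have h1 := Eis1.isBoundedAtImInfty_Zv' l pos_l _ _ (not_dvd_vecMul hv γ)
    have h2 : IsBoundedAtImInfty (fun _ : ℍ => ψ a) := const_boundedAtFilter _ _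
    exact h2.mul h1

theorem mdifferentiable_EisFun : MDiff (EisFun l ψ) := by
  rw [UpperHalfPlane.mdifferentiable_iff]
  have h : (EisFun l ψ ∘ ofComplex) = fun z : ℂ => ∑ a : ZMod l, ∑ k : ZMod l,
      ψ a * (Zv l (a.val : ℤ) (k.val : ℤ) ∘ ofComplex) z := rfl
  rw [h]
  refine DifferentiableOn.fun_sum fun a _ => DifferentiableOn.fun_sum fun k _ => ?_
  by_cases ha : a = 0
  · subst ha
    simp only [psi_zero, zero_mul]
    exact differentiableOn_const _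
  · have hv : ¬ ((l : ℤ) ∣ ((a.val : ℕ) : ℤ) ∧ (l : ℤ) ∣ ((k.val : ℕ) : ℤ)) :=
      fun h => not_dvd_val ha h.1
    have h1 := UpperHalfPlane.mdifferentiable_iff.mp (Eis1.mdifferentiable_Zv' l pos_l _ _ hv)
    exact h1.const_mul _

/-! ### The nebentypus -/

theorem natCast_val_cast (a : ZMod l) : (((a.val : ℕ) : ℤ) : ZMod l) = a := by
  rw [Int.cast_natCast, ZMod.natCast_zmod_val]

/-- reduction of a term modulo `l` -/
theorem Zv_val_congr {a : ZMod l} (ha : a ≠ 0) (k : ZMod l) (x y : ℤ)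
    (hx : ((x : ℤ) : ZMod l) = a) (hy : ((y : ℤ) : ZMod l) = k) (τ : ℍ) :
    Zv l x y τ = Zv l (a.val : ℤ) (k.val : ℤ) τ := by
  have hv : ¬ ((l : ℤ) ∣ ((a.val : ℕ) : ℤ) ∧ (l : ℤ) ∣ ((k.val : ℕ) : ℤ)) :=
    fun h => not_dvd_val ha h.1
  refine Zv_congr l pos_l _ _ _ _ hv ?_ ?_ τ
  · rw [← ZMod.intCast_eq_intCast_iff, natCast_val_cast, hx]
  · rw [← ZMod.intCast_eq_intCast_iff, natCast_val_cast, hy]

/-- **the nebentypus of `EisFun`.** -/
theorem EisFun_slash_Gamma0 (γ : SL(2, ℤ)) (hγ : γ ∈ Gamma0 l) :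
    EisFun l ψ ∣[(1 : ℤ)] γ = ψ ((γ 1 1 : ℤ) : ZMod l) • EisFun l ψ := by
  rw [Gamma0_mem] at hγ
  set A : ZMod l := ((γ 0 0 : ℤ) : ZMod l) with hA
  set B : ZMod l := ((γ 0 1 : ℤ) : ZMod l) with hB
  set D : ZMod l := ((γ 1 1 : ℤ) : ZMod l) with hD
  have hdet : A * D = 1 := by
    have h1 : γ 0 0 * γ 1 1 - γ 0 1 * γ 1 0 = 1 := by
      have := γ.2
      rwa [Matrix.det_fin_two] at this
    have h2 := congrArg (Int.cast : ℤ → ZMod l) h1
    push_cast at h2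
    rw [hγ, mul_zero, sub_zero] at h2
    exact h2
  have hA0 : A ≠ 0 := left_ne_zero_of_mul_eq_one hdet
  have hD0 : D ≠ 0 := right_ne_zero_of_mul_eq_one hdet
  rw [EisFun_slash]
  funext τ
  rw [Pi.smul_apply, smul_eq_mul]
  unfold EisFunTr EisFun
  -- step 1: reduce modulo `l`
  have h1 : ∀ a k : ZMod l, ψ a *
      Zv l ((a.val : ℤ) * γ 0 0 + (k.val : ℤ) * γ 1 0)
        ((a.val : ℤ) * γ 0 1 + (k.val : ℤ) * γ 1 1) τ =
      ψ a * Zv l ((a * A).val : ℤ) ((a * B + k * D).val : ℤ) τ := by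
    intro a k
    by_cases ha : a = 0
    · subst ha
      rw [psi_zero, zero_mul, zero_mul]
    · congr 1
      refine Zv_val_congr (mul_ne_zero ha hA0) _ _ _ ?_ ?_ τ
      · push_cast
        rw [ZMod.natCast_zmod_val, ZMod.natCast_zmod_val, hγ, mul_zero, add_zero]
      · push_cast
        rw [ZMod.natCast_zmod_val, ZMod.natCast_zmod_val]
  simp_rw [h1]
  -- step 2: reindex `k`
  have h2 : ∀ a : ZMod l, ∑ k : ZMod l, ψ a * Zv l ((a * A).val : ℤ) ((a * B + k * D).val : ℤ) τ =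
      ∑ k : ZMod l, ψ a * Zv l ((a * A).val : ℤ) (k.val : ℤ) τ := by
    intro a
    exact Fintype.sum_equiv ((Equiv.mulRight₀ D hD0).trans (Equiv.addLeft (a * B))) _ _
      fun k => by simp
  simp_rw [h2]
  -- step 3: reindex `a`
  have h3 : ∀ a : ZMod l, ∑ k : ZMod l, ψ a * Zv l ((a * A).val : ℤ) (k.val : ℤ) τ =
      ψ D * ∑ k : ZMod l, ψ (a * A) * Zv l ((a * A).val : ℤ) (k.val : ℤ) τ := by
    intro a
    rw [Finset.mul_sum]
    refine Finset.sum_congr rfl fun k _ => ?_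
    have hψ : ψ a = ψ (a * A) * ψ D := by rw [← map_mul, mul_assoc, hdet, mul_one]
    rw [hψ]
    ring
  simp_rw [h3]
  rw [← Finset.mul_sum]
  congr 1
  exact Fintype.sum_equiv (Equiv.mulRight₀ A hA0) _ _ fun a => by simp

theorem EisFun_slash_Gamma1 (γ : SL(2, ℤ)) (hγ : γ ∈ Gamma1 l) :
    EisFun l ψ ∣[(1 : ℤ)] γ = EisFun l ψ := by
  rw [EisFun_slash_Gamma0 ψ γ (Gamma1_in_Gamma0 l hγ)]
  rw [Gamma1_mem] at hγ
  rw [hγ.2.1, map_one, one_smul]

/-! ### The value in terms of `l τ` -/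

/-- **`EisFun l ψ τ = l ∑_{a < l} ψ(a) Zv l a 0 (l τ)`.** -/
theorem EisFun_eq (τ : ℍ) :
    EisFun l ψ τ = (l : ℂ) *
      ∑ a ∈ Finset.range l, ψ ((a : ℕ) : ZMod l) * Zv l (a : ℤ) 0 (mulTau l pos_l τ) := by
  have hl0 : (l : ℂ) ≠ 0 := Nat.cast_ne_zero.mpr (NeZero.ne l)
  unfold EisFun
  have h1 : ∀ a : ZMod l, ∑ k : ZMod l, ψ a * Zv l (a.val : ℤ) (k.val : ℤ) τ =
      (l : ℂ) * (ψ ((a.val : ℕ) : ZMod l) * Zv l ((a.val : ℕ) : ℤ) 0 (mulTau l pos_l τ)) := by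
    intro a
    rw [ZMod.natCast_zmod_val]
    by_cases ha : a = 0
    · subst ha
      simp [psi_zero]
    · rw [Zv_mulTau pos_l (not_dvd_val ha) τ, ← Finset.mul_sum,
        sum_zmod_eq_sum_range (fun k : ℕ => Zv l ((a.val : ℕ) : ℤ) (k : ℤ) τ)]
      field_simp
  simp_rw [h1]
  rw [← Finset.mul_sum]
  congr 1
  exact sum_zmod_eq_sum_range
    (fun a : ℕ => ψ ((a : ℕ) : ZMod l) * Zv l (a : ℤ) 0 (mulTau l pos_l τ))

/-! ### The modular form -/

variable (l)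

/-- **`c • EisFun l ψ` as a modular form of weight one on `Γ₁(l)`.** -/
def EisMF (c : ℂ) : ModularForm (Gamma1 l) 1 where
  toFun := c • EisFun l ψ
  slash_action_eq' := by
    rintro _ ⟨γ, hγ, rfl⟩
    change (c • EisFun l ψ) ∣[(1 : ℤ)] γ = c • EisFun l ψ
    rw [ModularForm.SL_smul_slash, EisFun_slash_Gamma1 ψ γ hγ]
  holo' := (mdifferentiable_EisFun ψ).const_smul c
  bdd_at_cusps' {c'} hc := by
    rw [Subgroup.IsArithmetic.isCusp_iff_isCusp_SL2Z] at hc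
    rw [OnePoint.isBoundedAt_iff_forall_SL2Z hc]
    intro γ _
    rw [ModularForm.SL_smul_slash, EisFun_slash]
    have h2 : IsBoundedAtImInfty (fun _ : ℍ => c) := const_boundedAtFilter _ _
    exact h2.mul (isBoundedAtImInfty_EisFunTr ψ γ)

variable {l}

@[simp]
theorem EisMF_apply (c : ℂ) (τ : ℍ) : EisMF l ψ c τ = c * EisFun l ψ τ := rfl

theorem coe_EisMF (c : ℂ) : (⇑(EisMF l ψ c) : ℍ → ℂ) = c • EisFun l ψ := rfl

/-- the nebentypus of `EisMF` -/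
theorem EisMF_slash_Gamma0 (c : ℂ) (γ : SL(2, ℤ)) (hγ : γ ∈ Gamma0 l) :
    (⇑(EisMF l ψ c) : ℍ → ℂ) ∣[(1 : ℤ)] γ =
      ψ ((γ 1 1 : ℤ) : ZMod l) • (⇑(EisMF l ψ c) : ℍ → ℂ) := by
  rw [coe_EisMF, ModularForm.SL_smul_slash, EisFun_slash_Gamma0 ψ γ hγ, smul_comm]

end

end Fermat.Agent.S48x.EWP
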