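import Mathlib

/-!
# P-S48 (E-WP): the Weierstrass zeta lattice sum (helper30)

For `τ : ℍ` and `x : ℂ` we put (division conventions of Lean: `1 / 0 = 0`, so that the term of the
lattice point `0` is `1 / x`)
`zetaW x τ = ∑_{(m,n) ∈ ℤ²} (1 / (x + mτ + n) - 1 / (mτ + n) + x / (mτ + n)²)`,
the Weierstrass zeta function of the lattice `ℤτ + ℤ`.  The sum converges absolutely and is
homogeneous of degree `-1`: `zetaW (x / (cτ + d)) (γ • τ) = (cτ + d) * zetaW x τ`.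
-/

set_option autoImplicit false

namespace Fermat.Agent.S48x.EWP

open UpperHalfPlane Complex Filter Topology EisensteinSeries Matrix
open scoped Real MatrixGroups

noncomputable section

/-- the lattice point `v 0 * τ + v 1` -/
def lat (τ : ℍ) (v : Fin 2 → ℤ) : ℂ := v 0 * (τ : ℂ) + v 1

/-- the summand of the Weierstrass zeta function -/
def zetaTerm (x : ℂ) (τ : ℍ) (v : Fin 2 → ℤ) : ℂ :=
  1 / (x + lat τ v) - 1 / lat τ v + x / (lat τ v) ^ 2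

/-- the Weierstrass zeta function of the lattice `ℤτ + ℤ` -/
def zetaW (x : ℂ) (τ : ℍ) : ℂ := ∑' v : Fin 2 → ℤ, zetaTerm x τ v

theorem lat_eq_eisSummand (τ : ℍ) (v : Fin 2 → ℤ) : lat τ v = eisSummand (-1) v τ := by
  simp [lat, eisSummand]

theorem lat_ne_zero (τ : ℍ) {v : Fin 2 → ℤ} (hv : v ≠ 0) : lat τ v ≠ 0 := by
  have h := r_mul_max_le τ hv
  intro h0
  unfold lat at h0
  rw [h0, norm_zero] at h
  have : 0 < r τ * ‖v‖ := mul_pos (r_pos τ) (norm_pos_iff.mpr hv)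
  linarith

theorem lat_zero (τ : ℍ) : lat τ 0 = 0 := by simp [lat]

theorem zetaTerm_zero_right (x : ℂ) (τ : ℍ) : zetaTerm x τ 0 = 1 / x := by
  simp [zetaTerm, lat_zero]

theorem zetaTerm_eq {x : ℂ} {τ : ℍ} {v : Fin 2 → ℤ} (hw : lat τ v ≠ 0) (hxw : x + lat τ v ≠ 0) :
    zetaTerm x τ v = x ^ 2 / ((lat τ v) ^ 2 * (x + lat τ v)) := by
  unfold zetaTerm
  field_simp
  ring

theorem norm_zetaTerm_le {x : ℂ} {τ : ℍ} {v : Fin 2 → ℤ} (hw : 2 * ‖x‖ ≤ ‖lat τ v‖)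
    (hw0 : lat τ v ≠ 0) :
    ‖zetaTerm x τ v‖ ≤ 2 * ‖x‖ ^ 2 * ‖eisSummand 3 v τ‖ := by
  have hpos : 0 < ‖lat τ v‖ := norm_pos_iff.mpr hw0
  have h1 : ‖lat τ v‖ / 2 ≤ ‖x + lat τ v‖ := by
    have := norm_sub_norm_le (lat τ v) (-x)
    rw [norm_neg, sub_neg_eq_add, add_comm] at this
    linarith [norm_nonneg x]
  have hxw : x + lat τ v ≠ 0 := by
    intro h0
    rw [h0, norm_zero] at h1
    linarith
  rw [zetaTerm_eq hw0 hxw, norm_div, norm_mul, norm_pow, norm_pow]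
  have h3 : ‖eisSummand 3 v τ‖ = (‖lat τ v‖ ^ 3)⁻¹ := by
    simp [eisSummand, lat, norm_inv]
  rw [h3, div_le_iff₀ (by positivity)]
  have h4 : 2 * ‖x‖ ^ 2 * (‖lat τ v‖ ^ 3)⁻¹ * (‖lat τ v‖ ^ 2 * ‖x + lat τ v‖) =
      ‖x‖ ^ 2 * (2 * ‖x + lat τ v‖ / ‖lat τ v‖) := by
    field_simp
  rw [h4]
  have h5 : 1 ≤ 2 * ‖x + lat τ v‖ / ‖lat τ v‖ := by
    rw [le_div_iff₀ hpos]
    linarith
  nlinarith [sq_nonneg ‖x‖]

/-- the lattice points in a ball are finite in number -/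
theorem finite_lat_lt (τ : ℍ) (R : ℝ) : {v : Fin 2 → ℤ | ‖lat τ v‖ < R}.Finite := by
  have hsum := summable_norm_eisSummand (k := 3) le_rfl τ
  have htend := hsum.tendsto_cofinite_zero
  by_cases hR : 0 < R
  · have hev : ∀ᶠ v in cofinite, ‖eisSummand 3 v τ‖ < (R ^ 3)⁻¹ :=
      htend.eventually (gt_mem_nhds (by positivity))
    have hfin : {v : Fin 2 → ℤ | ¬ ‖eisSummand 3 v τ‖ < (R ^ 3)⁻¹}.Finite := hev
    refine (hfin.union (Set.finite_singleton 0)).subset ?_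
    intro v hv
    by_cases hv0 : v = 0
    · right; exact hv0
    · left
      simp only [Set.mem_ofPred_eq, not_lt]
      have hw0 := lat_ne_zero τ hv0
      have hpos : 0 < ‖lat τ v‖ := norm_pos_iff.mpr hw0
      have h3 : ‖eisSummand 3 v τ‖ = (‖lat τ v‖ ^ 3)⁻¹ := by
        simp [eisSummand, lat, norm_inv]
      rw [h3]
      have hv' : ‖lat τ v‖ < R := hv
      rw [inv_le_inv₀ (by positivity) (by positivity)]
      exact pow_le_pow_left₀ hpos.le hv'.le 3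
  · refine Set.Finite.subset Set.finite_empty ?_
    intro v hv
    have hv' : ‖lat τ v‖ < R := hv
    exact absurd (lt_of_le_of_lt (norm_nonneg _) hv') hR

theorem summable_norm_zetaTerm (x : ℂ) (τ : ℍ) : Summable fun v => ‖zetaTerm x τ v‖ := by
  have hsum := (summable_norm_eisSummand (k := 3) le_rfl τ).mul_left (2 * ‖x‖ ^ 2)
  refine Summable.of_norm_bounded_eventually hsum ?_
  have hfin := (finite_lat_lt τ (2 * ‖x‖)).union (Set.finite_singleton (0 : Fin 2 → ℤ))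
  refine hfin.subset ?_
  intro v hv
  by_contra hcon
  simp only [Set.mem_union, Set.mem_ofPred_eq, Set.mem_singleton_iff, not_or, not_lt] at hcon
  have := norm_zetaTerm_le hcon.1 (lat_ne_zero τ hcon.2)
  apply hv
  change ‖‖zetaTerm x τ v‖‖ ≤ _
  rw [norm_norm]
  exact this

theorem summable_zetaTerm (x : ℂ) (τ : ℍ) : Summable (zetaTerm x τ) :=
  (summable_norm_zetaTerm x τ).of_norm

theorem hasSum_zetaW (x : ℂ) (τ : ℍ) : HasSum (zetaTerm x τ) (zetaW x τ) :=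
  (summable_zetaTerm x τ).hasSum

/-! ### Homogeneity -/

/-- right multiplication by `γ ∈ SL(2, ℤ)` on row vectors -/
def vecMulEquiv (γ : SL(2, ℤ)) : (Fin 2 → ℤ) ≃ (Fin 2 → ℤ) where
  toFun v := v ᵥ* (γ : Matrix (Fin 2) (Fin 2) ℤ)
  invFun v := v ᵥ* ((γ⁻¹ : SL(2, ℤ)) : Matrix (Fin 2) (Fin 2) ℤ)
  left_inv v := by
    change (v ᵥ* (γ : Matrix (Fin 2) (Fin 2) ℤ)) ᵥ* ((γ⁻¹ : SL(2, ℤ)) : Matrix (Fin 2) (Fin 2) ℤ) = v
    rw [Matrix.vecMul_vecMul, ← Matrix.SpecialLinearGroup.coe_mul, mul_inv_cancel]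
    simp
  right_inv v := by
    change (v ᵥ* ((γ⁻¹ : SL(2, ℤ)) : Matrix (Fin 2) (Fin 2) ℤ)) ᵥ* (γ : Matrix (Fin 2) (Fin 2) ℤ) = v
    rw [Matrix.vecMul_vecMul, ← Matrix.SpecialLinearGroup.coe_mul, inv_mul_cancel]
    simp

theorem lat_smul (γ : SL(2, ℤ)) (τ : ℍ) (v : Fin 2 → ℤ) :
    lat (γ • τ) v = lat τ (v ᵥ* (γ : Matrix (Fin 2) (Fin 2) ℤ)) / denom γ τ := by
  rw [lat_eq_eisSummand, lat_eq_eisSummand, eisSummand_SL2_apply, _root_.zpow_neg, zpow_one,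
    div_eq_inv_mul]

theorem zetaTerm_smul (γ : SL(2, ℤ)) (x : ℂ) (τ : ℍ) (v : Fin 2 → ℤ) :
    zetaTerm (x / denom γ τ) (γ • τ) v =
      denom γ τ * zetaTerm x τ (v ᵥ* (γ : Matrix (Fin 2) (Fin 2) ℤ)) := by
  have hj : denom γ τ ≠ 0 := denom_ne_zero γ τ
  unfold zetaTerm
  rw [lat_smul]
  set j := denom γ τ
  set w := lat τ (v ᵥ* (γ : Matrix (Fin 2) (Fin 2) ℤ))
  rw [← add_div, one_div_div, one_div_div, div_pow, div_div_eq_mul_div, mul_add, mul_sub]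
  congr 1
  · ring
  · have h1 : x / j * j ^ 2 = x * j := by
      rw [pow_two, ← mul_assoc, div_mul_cancel₀ _ hj]
    rw [h1]
    ring

/-- **homogeneity of the Weierstrass zeta function** -/
theorem zetaW_smul (γ : SL(2, ℤ)) (x : ℂ) (τ : ℍ) :
    zetaW (x / denom γ τ) (γ • τ) = denom γ τ * zetaW x τ := by
  unfold zetaW
  simp_rw [zetaTerm_smul]
  rw [tsum_mul_left]
  congr 1
  exact (vecMulEquiv γ).tsum_eq (zetaTerm x τ)

end

end Fermat.Agent.S48x.EWP
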